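import Mathlib
import Fermat.Agent.LT.Descent.ClassesBasic

/-!
# The chart near one of `PGL₂`

A class with nonzero trace has a unique representative `1 + X` with `X` of trace zero.  The classes
with `X` small form a fundamental system of subgroups, on which `X` is an isometry.
-/

set_option autoImplicit false

noncomputable section

open Matrix IsDedekindDomain NumberField WithZero
open scoped MatrixGroups

namespace FermatAgent.LT2.Loc

open FermatAgent.LT (G2 g2Map sc locGL locK)

section Alg

variable {F : Type*} [Field F]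

/-- Two by two matrices. -/
abbrev M2 (F : Type*) := Matrix (Fin 2) (Fin 2) F

/-- Half the commutator. -/
def br (X Y : M2 F) : M2 F := (2 : F)⁻¹ • (X * Y - Y * X)

/-- Half the trace of the product. -/
def sp (X Y : M2 F) : F := (X * Y).trace / 2

/-- Brackets have trace zero. -/
lemma trace_br (X Y : M2 F) : (br X Y).trace = 0 := by
  rw [br, Matrix.trace_smul, Matrix.trace_sub, Matrix.trace_mul_comm, sub_self, smul_zero]

variable [CharZero F]

/-- A product of trace zero matrices splits into form and bracket. -/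
lemma mul_eq_sp_add_br {X Y : M2 F} (hX : X.trace = 0) (hY : Y.trace = 0) :
    X * Y = sp X Y • (1 : M2 F) + br X Y := by
  rw [Matrix.trace_fin_two, add_eq_zero_iff_eq_neg'] at hX hY
  ext i j
  fin_cases i <;> fin_cases j <;>
    simp [sp, br, Matrix.trace_fin_two, Matrix.mul_apply, Fin.sum_univ_two, hX, hY] <;> ring

omit [CharZero F] in
lemma br_neg_left (X Y : M2 F) : br (-X) Y = -br X Y := by
  rw [br, br, ← smul_neg]
  congr 1
  rw [neg_mul, mul_neg]
  abel

omit [CharZero F] in
lemma br_sub (X Y : M2 F) : br X (Y - X) = br X Y := by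
  simp [br, Matrix.mul_sub, Matrix.sub_mul]

/-- The traceless coordinate of a matrix. -/
def ch (g : GL (Fin 2) F) : M2 F := (2 / g.val.trace) • g.val - 1

/-- The chart has trace zero exactly when the trace is nonzero. -/
lemma trace_ch (g : GL (Fin 2) F) : (ch g).trace = 0 ↔ g.val.trace ≠ 0 := by
  rw [ch, Matrix.trace_sub, Matrix.trace_smul, Matrix.trace_one, Fintype.card_fin, smul_eq_mul]
  by_cases h : g.val.trace = 0
  · simp [h]
  · simp [h]

lemma ch_mul_sc (g : GL (Fin 2) F) (u : Fˣ) : ch (g * sc u) = ch g := by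
  have ht : (g * sc u).val.trace = (u : F) * g.val.trace := by
    rw [Units.val_mul, LT.sc_val, mul_smul_comm, mul_one, Matrix.trace_smul, smul_eq_mul]
  rw [ch, ch, ht, Units.val_mul, LT.sc_val, mul_smul_comm, mul_one, smul_smul]
  congr 2
  by_cases h : g.val.trace = 0
  · simp [h]
  · field_simp

/-- Matrices are scalar multiples of one plus their chart. -/
lemma exists_eq_smul {g : GL (Fin 2) F} (h : (ch g).trace = 0) :
    ∃ a : F, a ≠ 0 ∧ g.val = a • ((1 : M2 F) + ch g) := by
  have ht := (trace_ch g).mp h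
  refine ⟨g.val.trace / 2, div_ne_zero ht two_ne_zero, ?_⟩
  rw [ch, add_sub_cancel, smul_smul, show g.val.trace / 2 * (2 / g.val.trace) = 1 by field_simp,
    one_smul]

/-- The chart is unique. -/
lemma ch_of_eq {g : GL (Fin 2) F} {a : F} {X : M2 F} (ha : a ≠ 0) (hX : X.trace = 0)
    (h : g.val = a • ((1 : M2 F) + X)) : ch g = X := by
  have ht : g.val.trace = a * 2 := by
    rw [h, Matrix.trace_smul, Matrix.trace_add, Matrix.trace_one, hX, Fintype.card_fin, smul_eq_mul]
    simp
  rw [ch, ht, h, smul_smul, show 2 / (a * 2) * a = 1 by field_simp, one_smul, add_sub_cancel_left]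

/-- The coordinate of a product. -/
lemma ch_mul {g h : GL (Fin 2) F} (hg : (ch g).trace = 0) (hh : (ch h).trace = 0)
    (hs : 1 + sp (ch g) (ch h) ≠ 0) :
    ch (g * h) = (1 + sp (ch g) (ch h))⁻¹ • (ch g + ch h + br (ch g) (ch h)) := by
  obtain ⟨a, ha, eg⟩ := exists_eq_smul hg
  obtain ⟨b, hb, eh⟩ := exists_eq_smul hh
  refine ch_of_eq (a := a * b * (1 + sp (ch g) (ch h))) (mul_ne_zero (mul_ne_zero ha hb) hs) ?_ ?_
  · rw [Matrix.trace_smul, Matrix.trace_add, Matrix.trace_add, hg, hh, trace_br]
    simp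
  · rw [Units.val_mul]
    nth_rw 1 [eg, eh]
    rw [smul_mul_smul_comm, mul_smul (a * b), smul_add (1 + sp (ch g) (ch h)), smul_smul,
      mul_inv_cancel₀ hs, one_smul, Matrix.add_mul, Matrix.mul_add, Matrix.mul_add,
      one_mul, one_mul,
      mul_one, mul_eq_sp_add_br hg hh, add_smul, one_smul]
    congr 1
    abel

lemma ch_inv {g : GL (Fin 2) F} (hg : (ch g).trace = 0) : ch g⁻¹ = -ch g := by
  obtain ⟨a, ha, eg⟩ := exists_eq_smul hg
  have hd : g.val.det ≠ 0 := Matrix.GeneralLinearGroup.det_ne_zero g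
  refine ch_of_eq (a := a / g.val.det) (div_ne_zero ha hd) (by simp [hg]) ?_
  rw [Matrix.coe_units_inv, Matrix.inv_def, Ring.inverse_eq_inv', div_eq_mul_inv, mul_comm a,
    mul_smul]
  congr 1
  rw [Matrix.trace_fin_two] at hg
  have h11 : ch g 1 1 = -ch g 0 0 := by linear_combination hg
  rw [Matrix.adjugate_fin_two]
  have e := fun i j => congrFun (congrFun eg i) j
  ext i j
  fin_cases i <;> fin_cases j <;> simp [e, h11]

omit [CharZero F] in
/-- The chart commutes with conjugation. -/
lemma ch_conj (a g : GL (Fin 2) F) : ch (a⁻¹ * g * a) = a⁻¹.val * ch g * a.val := by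
  rw [ch, ch, Units.val_mul, Units.val_mul, Matrix.trace_units_conj', Matrix.mul_sub, mul_one,
    Matrix.sub_mul, Units.inv_mul, Matrix.mul_smul, Matrix.smul_mul]

omit [CharZero F] in
lemma ch_map {E : Type*} [Field E] (φ : F →+* E) (g : GL (Fin 2) F) :
    ch (GeneralLinearGroup.map φ g) = (ch g).map φ := by
  ext i j
  by_cases hij : i = j
  · subst hij; simp [ch, Matrix.trace_fin_two, map_div₀, map_ofNat]
  · simp [ch, Matrix.trace_fin_two, map_div₀, map_ofNat, hij]

omit [CharZero F] in
/-- The determinant of one plus a traceless matrix. -/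
lemma det_one_add {E : M2 F} (hE : E.trace = 0) : ((1 : M2 F) + E).det = 1 + E.det := by
  rw [Matrix.trace_fin_two] at hE
  simp [Matrix.det_fin_two]
  linear_combination hE

/-- The coordinate of a class. -/
def chP (q : G2 F) : M2 F := ch (ProjGenLinGroup.mk_surjective q).choose

/-- The chart of a class. -/
@[simp] lemma chP_mk (g : GL (Fin 2) F) : chP (ProjGenLinGroup.mk g) = ch g := by
  have h := (ProjGenLinGroup.mk_surjective (ProjGenLinGroup.mk g)).choose_spec
  obtain ⟨u, hu⟩ := Matrix.ProjGenLinGroup.mk_eq_mk_iff.mp h.symm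
  rw [chP, ← hu]
  exact ch_mul_sc g u

/-- The chart of one. -/
@[simp] lemma chP_one : chP (1 : G2 F) = 0 := by
  rw [← map_one ProjGenLinGroup.mk, chP_mk]
  simp [ch, Matrix.trace_one]

/-- Only one has chart zero. -/
lemma chP_eq_zero {q : G2 F} (h : chP q = 0) : q = 1 := by
  obtain ⟨g, rfl⟩ := ProjGenLinGroup.mk_surjective q
  rw [chP_mk] at h
  obtain ⟨a, ha, e⟩ := exists_eq_smul (g := g) (by simp [h])
  rw [LT.Quad.mk_eq_one_iff, LT.Quad.isScal_iff]
  exact ⟨a, by rw [e, h, add_zero]⟩

/-- The chart of a product. -/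
lemma chP_mul {p q : G2 F} (hp : (chP p).trace = 0) (hq : (chP q).trace = 0)
    (hs : 1 + sp (chP p) (chP q) ≠ 0) :
    chP (p * q) = (1 + sp (chP p) (chP q))⁻¹ • (chP p + chP q + br (chP p) (chP q)) := by
  obtain ⟨g, rfl⟩ := ProjGenLinGroup.mk_surjective p
  obtain ⟨h, rfl⟩ := ProjGenLinGroup.mk_surjective q
  rw [← map_mul]
  simp only [chP_mk] at hp hq hs ⊢
  exact ch_mul hp hq hs

/-- The chart of an inverse. -/
lemma chP_inv {p : G2 F} (hp : (chP p).trace = 0) : chP p⁻¹ = -chP p := by
  obtain ⟨g, rfl⟩ := ProjGenLinGroup.mk_surjective p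
  rw [← map_inv]
  simp only [chP_mk] at hp ⊢
  exact ch_inv hp

/-- The chart of a conjugate. -/
lemma chP_conj (a : GL (Fin 2) F) (p : G2 F) :
    chP ((ProjGenLinGroup.mk a)⁻¹ * p * ProjGenLinGroup.mk a) = a⁻¹.val * chP p * a.val := by
  obtain ⟨g, rfl⟩ := ProjGenLinGroup.mk_surjective p
  rw [← map_inv, ← map_mul, ← map_mul, chP_mk, chP_mk, ch_conj]

omit [CharZero F] in
/-- Trace zero is preserved by field maps. -/
lemma trace_map_eq_zero {E : Type*} [Field E] (φ : F →+* E) (M : M2 F) :
    (M.map φ).trace = 0 ↔ M.trace = 0 := by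
  rw [Matrix.trace_fin_two, Matrix.trace_fin_two, Matrix.map_apply, Matrix.map_apply, ← map_add,
    map_eq_zero]

/-- The chart commutes with field maps. -/
lemma chP_map {E : Type*} [Field E] [CharZero E] (φ : F →+* E) (p : G2 F) :
    chP (g2Map φ p) = (chP p).map φ := by
  obtain ⟨g, rfl⟩ := ProjGenLinGroup.mk_surjective p
  rw [ProjGenLinGroup.map_mk, chP_mk, chP_mk, ch_map]

end Alg

section Size

variable {F : Type*} [Field F] [NumberField F] {v : HeightOneSpectrum (𝓞 F)}

/-- All entries bounded. -/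
def Small (v : HeightOneSpectrum (𝓞 F)) (r : WithZero (Multiplicative ℤ)) (M : M2 F) : Prop :=
  ∀ i j, v.valuation F (M i j) ≤ r

variable {r r' : WithZero (Multiplicative ℤ)} {M M' : M2 F}

/-- Smallness is monotone. -/
lemma Small.mono (h : Small v r M) (hr : r ≤ r') : Small v r' M := fun i j => (h i j).trans hr

/-- Zero is small. -/
lemma small_zero : Small v r (0 : M2 F) := fun i j => by simp

/-- One is small at radius one. -/
lemma small_one (hr : 1 ≤ r) : Small v r (1 : M2 F) := fun i j => by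
  fin_cases i <;> fin_cases j <;> simp [hr]

lemma Small.neg (h : Small v r M) : Small v r (-M) := fun i j => by simpa using h i j

/-- Sums of small matrices are small. -/
lemma Small.add (h : Small v r M) (h' : Small v r M') : Small v r (M + M') := fun i j =>
  ((v.valuation F).map_add _ _).trans (max_le (h i j) (h' i j))

/-- Differences of small matrices are small. -/
lemma Small.sub (h : Small v r M) (h' : Small v r M') : Small v r (M - M') := fun i j =>
  ((v.valuation F).map_sub _ _).trans (max_le (h i j) (h' i j))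

/-- Multiples of small matrices. -/
lemma Small.smul (h : Small v r M) (c : F) : Small v (v.valuation F c * r) (c • M) := fun i j => by
  simpa using mul_le_mul_right (h i j) (v.valuation F c)

/-- Products of small matrices. -/
lemma Small.mul (h : Small v r M) (h' : Small v r' M') : Small v (r * r') (M * M') := fun i j => by
  simp only [Matrix.mul_apply, Fin.sum_univ_two]
  refine ((v.valuation F).map_add _ _).trans (max_le ?_ ?_) <;> rw [map_mul] <;>
    exact mul_le_mul' (h _ _) (h' _ _)

/-- Traces of small matrices are small. -/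
lemma Small.trace (h : Small v r M) : v.valuation F M.trace ≤ r := by
  rw [Matrix.trace_fin_two]
  exact ((v.valuation F).map_add _ _).trans (max_le (h 0 0) (h 1 1))

/-- If a matrix is not small, its largest entry witnesses it. -/
lemma Small.exists_gt (h : ¬Small v r M) :
    ∃ i j, r < v.valuation F (M i j) ∧ Small v (v.valuation F (M i j)) M := by
  obtain ⟨⟨i, j⟩, -, hmax⟩ := Finset.exists_max_image (Finset.univ : Finset (Fin 2 × Fin 2))
    (fun x => v.valuation F (M x.1 x.2)) Finset.univ_nonempty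
  exact ⟨i, j, lt_of_not_ge fun h' => h fun a b => (hmax (a, b) (Finset.mem_univ _)).trans h',
    fun a b => hmax (a, b) (Finset.mem_univ _)⟩

/-- Determinants of small matrices are small. -/
lemma Small.det (h : Small v r M) : v.valuation F M.det ≤ r * r := by
  rw [Matrix.det_fin_two]
  refine ((v.valuation F).map_sub _ _).trans (max_le ?_ ?_) <;> rw [map_mul] <;>
    exact mul_le_mul' (h _ _) (h _ _)

lemma Small.conj_locGL (h : Small v r M) {a : GL (Fin 2) F} (ha : a ∈ locGL v) :
    Small v r (a⁻¹.val * M * a.val) := by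
  have h1 : Small v 1 (a⁻¹).val := ((locGL v).inv_mem ha).1
  have h2 : Small v 1 a.val := ha.1
  simpa using (h1.mul h).mul h2

variable (v)

/-- Two is nonzero. -/
lemma val_two_ne : v.valuation F 2 ≠ 0 := (Valuation.ne_zero_iff _).mpr two_ne_zero

/-- Two is integral. -/
lemma val_two_le : v.valuation F 2 ≤ 1 := by
  rw [show (2 : F) = algebraMap (𝓞 F) F 2 from (map_ofNat _ 2).symm]
  exact v.valuation_le_one _

/-- Values of integral elements as natural exponentials. -/
lemma val_eq_exp_toNat {x : F} (hx : x ≠ 0) (h1 : v.valuation F x ≤ 1) :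
    v.valuation F x = exp (-(((-log (v.valuation F x)).toNat : ℕ) : ℤ)) := by
  have h0 : v.valuation F x ≠ 0 := (Valuation.ne_zero_iff _).mpr hx
  rw [← exp_log h0, ← exp_zero, exp_le_exp] at h1
  rw [Int.toNat_of_nonneg (by omega), neg_neg, exp_log h0]

/-- The radius of a step of the chart. -/
def gr (n : ℕ) : WithZero (Multiplicative ℤ) := v.valuation F 2 * exp (-((n : ℤ) + 1))

/-- The graded radii decrease. -/
lemma gr_anti {a b : ℕ} (h : a ≤ b) : gr v b ≤ gr v a :=
  mul_le_mul_right (exp_le_exp.mpr (by omega)) _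

lemma gr_lt_two (n : ℕ) : gr v n < v.valuation F 2 :=
  mul_lt_of_lt_one_right (zero_lt_iff.mpr (val_two_ne v))
    (by rw [← exp_zero, exp_lt_exp]; omega)

/-- The graded radii are less than one. -/
lemma gr_lt_one (n : ℕ) : gr v n < 1 := (gr_lt_two v n).trans_le (val_two_le v)

/-- The graded radii are nonzero. -/
lemma gr_ne_zero (n : ℕ) : gr v n ≠ 0 := mul_ne_zero (val_two_ne v) exp_ne_zero

lemma gr_mul (a b : ℕ) : gr v a * gr v b = v.valuation F 2 * gr v (a + b + 1) := by
  rw [gr, gr, gr, mul_mul_mul_comm, ← WithZero.exp_add, mul_assoc]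
  congr 3

/-- Every positive radius contains a step. -/
lemma exists_gr_le {r : WithZero (Multiplicative ℤ)} (hr : r ≠ 0) : ∃ n, gr v n ≤ r := by
  refine ⟨(-log r).toNat, (mul_le_of_le_one_left zero_le (val_two_le v)).trans ?_⟩
  rw [← exp_log hr, exp_le_exp]
  simp only [log_exp]
  omega

variable {v}

/-- Brackets of small matrices are smaller. -/
lemma small_br {a b : ℕ} (h : Small v (gr v a) M) (h' : Small v (gr v b) M') :
    Small v (gr v (a + b + 1)) (br M M') := by
  have h1 := (h.mul h').sub (mul_comm (gr v a) (gr v b) ▸ h'.mul h)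
  have h2 := h1.smul (2 : F)⁻¹
  rwa [gr_mul, map_inv₀, inv_mul_cancel_left₀ (val_two_ne v)] at h2

/-- The form of small matrices is small. -/
lemma val_sp_le {a b : ℕ} (h : Small v (gr v a) M) (h' : Small v (gr v b) M') :
    v.valuation F (sp M M') ≤ gr v (a + b + 1) := by
  rw [sp, map_div₀, div_le_iff₀ (zero_lt_iff.mpr (val_two_ne v)), mul_comm (gr v _), ← gr_mul]
  exact (h.mul h').trace

/-- One plus a small element is nonzero. -/
lemma one_add_ne {x : F} (hx : v.valuation F x < 1) : 1 + x ≠ 0 := fun e => by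
  have := Valuation.map_one_add_of_lt _ hx
  rw [e, map_zero] at this
  exact zero_ne_one this

variable (v)

/-- The steps of the chart. -/
def gam (n : ℕ) : Subgroup (G2 F) where
  carrier := {q | (chP q).trace = 0 ∧ Small v (gr v n) (chP q)}
  one_mem' := by simp [small_zero]
  mul_mem' := by
    rintro p q ⟨hp, hp'⟩ ⟨hq, hq'⟩
    have hs := (val_sp_le hp' hq').trans_lt (gr_lt_one v _)
    show _ ∧ _
    rw [chP_mul hp hq (one_add_ne hs)]
    refine ⟨by simp [hp, hq, trace_br], ?_⟩
    have h := ((hp'.add hq').add ((small_br hp' hq').mono (gr_anti v (by omega)))).smul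
      (1 + sp (chP p) (chP q))⁻¹
    rwa [map_inv₀, Valuation.map_one_add_of_lt _ hs, inv_one, one_mul] at h
  inv_mem' := by
    rintro p ⟨hp, hp'⟩
    show _ ∧ _
    rw [chP_inv hp]
    exact ⟨by simp [hp], hp'.neg⟩

variable {v} {n a b : ℕ} {p q : G2 F}

/-- Membership in a deep subgroup. -/
lemma mem_gam : q ∈ gam v n ↔ (chP q).trace = 0 ∧ Small v (gr v n) (chP q) := Iff.rfl

/-- Deep subgroups decrease. -/
lemma gam_anti (h : a ≤ b) : gam v b ≤ gam v a := fun _ hq => ⟨hq.1, hq.2.mono (gr_anti v h)⟩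

/-- The chart is an isometry. -/
theorem inv_mul_mem_gam_iff (hp : p ∈ gam v a) (hq : q ∈ gam v a) (k : ℕ) :
    p⁻¹ * q ∈ gam v k ↔ Small v (gr v k) (chP q - chP p) := by
  have hpi := (gam v a).inv_mem hp
  have hs := (val_sp_le hpi.2 hq.2).trans_lt (gr_lt_one v _)
  set s := sp (chP p⁻¹) (chP q) with hsdef
  set D := chP q - chP p with hD
  have e : chP (p⁻¹ * q) = (1 + s)⁻¹ • (D - br (chP p) D) := by
    rw [chP_mul hpi.1 hq.1 (one_add_ne hs), ← hsdef, chP_inv hp.1, br_neg_left, hD, br_sub]
    congr 1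
    abel
  have htr : (chP (p⁻¹ * q)).trace = 0 := by
    rw [e]; simp [hD, hp.1, hq.1, trace_br]
  have key : Small v (gr v k) (chP (p⁻¹ * q)) ↔ Small v (gr v k) (D - br (chP p) D) := by
    rw [e]
    refine forall_congr' fun i => forall_congr' fun j => ?_
    simp [map_inv₀, Valuation.map_one_add_of_lt _ hs]
  rw [mem_gam, and_iff_right htr, key]
  constructor
  · intro h
    by_contra hne
    obtain ⟨i, j, hρ, hDs⟩ := Small.exists_gt hne
    set ρ := v.valuation F (D i j)
    have hb := ((hp.2.mul hDs).sub (mul_comm (gr v a) ρ ▸ hDs.mul hp.2)).smul (2 : F)⁻¹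
    have hlt : v.valuation F (br (chP p) D i j) < ρ := by
      refine (hb i j).trans_lt ?_
      rw [map_inv₀, ← mul_assoc]
      refine mul_lt_of_lt_one_left (zero_le.trans_lt hρ) ?_
      rw [inv_mul_lt_iff₀ (zero_lt_iff.mpr (val_two_ne v)), mul_one]
      exact gr_lt_two v a
    have := h i j
    rw [Matrix.sub_apply, Valuation.map_sub_eq_of_lt_left _ hlt] at this
    exact absurd this hρ.not_ge
  · intro h
    exact h.sub ((small_br hp.2 h).mono (gr_anti v (by omega)))

/-- Valuation preserving maps respect deep subgroups. -/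
lemma map_mem_gam_iff {E : Type*} [Field E] [NumberField E] {u : HeightOneSpectrum (𝓞 E)}
    {f : F →+* E} (hf : ∀ x, u.valuation E (f x) = v.valuation F x) :
    g2Map f q ∈ gam u n ↔ q ∈ gam v n := by
  rw [mem_gam, mem_gam, chP_map, trace_map_eq_zero]
  refine and_congr_right fun _ => forall_congr' fun i => forall_congr' fun j => ?_
  rw [Matrix.map_apply, hf, gr, gr, ← map_ofNat f 2, hf]

/-- The maximal compact group normalises deep subgroups. -/
lemma conj_mem_gam {x : G2 F} (hx : x ∈ locK v) (hq : q ∈ gam v n) : x⁻¹ * q * x ∈ gam v n := by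
  obtain ⟨g, hg, rfl⟩ := hx
  rw [mem_gam, chP_conj]
  exact ⟨by rw [Matrix.trace_units_conj']; exact hq.1, hq.2.conj_locGL hg⟩

/-- Elements of deep subgroups have normalised representatives. -/
lemma exists_rep (hq : q ∈ gam v n) : ∃ g ∈ locGL v, ProjGenLinGroup.mk g = q ∧
    g.val = 1 + chP q := by
  obtain ⟨h, rfl⟩ := ProjGenLinGroup.mk_surjective q
  obtain ⟨a, ha, e⟩ := exists_eq_smul (g := h) (by simpa using hq.1)
  set X := chP (ProjGenLinGroup.mk h) with hXdef
  have hX : Small v (gr v n) X := hq.2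
  rw [← chP_mk h, ← hXdef] at e
  have he : (h * sc (Units.mk0 a⁻¹ (inv_ne_zero ha))).val = 1 + X := by
    rw [Units.val_mul, LT.sc_val, mul_smul_comm, mul_one, e, smul_smul, Units.val_mk0,
      inv_mul_cancel₀ ha, one_smul]
  refine ⟨h * sc (Units.mk0 a⁻¹ (inv_ne_zero ha)), ?_, by
    rw [map_mul, ProjGenLinGroup.mk_scalar, mul_one], he⟩
  refine ⟨fun i j => ?_, ?_⟩
  · rw [he]
    exact ((small_one le_rfl).add (hX.mono (gr_lt_one v n).le)) i j
  · rw [he]
    rw [det_one_add hq.1]
    exact Valuation.map_one_add_of_lt _ (hX.det.trans_lt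
      (mul_lt_one_of_lt_of_le (gr_lt_one v n) (gr_lt_one v n).le))

/-- Deep subgroups lie in the maximal compact group. -/
lemma gam_le_locK : gam v n ≤ locK v := fun _ hq => by
  obtain ⟨g, hg, rfl, -⟩ := exists_rep hq
  exact ⟨g, hg, rfl⟩

/-- A class with a given coordinate. -/
lemma exists_chP_eq {X : M2 F} (hX : X.trace = 0) (hs : Small v (gr v n) X) :
    ∃ q ∈ gam v n, chP q = X := by
  have hd : ((1 : M2 F) + X).det ≠ 0 := by
    rw [det_one_add hX]
    exact one_add_ne (hs.det.trans_lt (mul_lt_one_of_lt_of_le (gr_lt_one v n) (gr_lt_one v n).le))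
  have e := ch_of_eq (g := GeneralLinearGroup.mkOfDetNeZero _ hd) one_ne_zero hX (one_smul F _).symm
  refine ⟨ProjGenLinGroup.mk (GeneralLinearGroup.mkOfDetNeZero _ hd), ?_, by rw [chP_mk, e]⟩
  rw [mem_gam, chP_mk, e]
  exact ⟨hX, hs⟩

end Size

end FermatAgent.LT2.Loc
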