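import Mathlib
import Fermat.Agent.LT2.Loc.Chart

/-!
# Cubes and cube roots near one

In the chart cubing is a multiplication by three up to an isometry; cube roots are given by an
iteration which commutes with conjugation and with field homomorphisms.
-/

set_option autoImplicit false

noncomputable section

open Matrix IsDedekindDomain NumberField WithZero
open scoped MatrixGroups

namespace FermatAgent.LT2.Loc

open FermatAgent.LT (G2 g2Map sc locGL locK)

section Alg

variable {F : Type*} [Field F]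

/-- The scalar square of a traceless matrix. -/
def sq' (X : M2 F) : F := -X.det

/-- The nonlinear part of the cube. -/
def cubErr (X : M2 F) : M2 F := (8 * (sq' X / (1 + 3 * sq' X))) • X

/-- The coordinate of the cube. -/
def cub (X : M2 F) : M2 F := (3 : F) • X - cubErr X

lemma mul_self_eq_sq' {X : M2 F} (hX : X.trace = 0) : X * X = sq' X • (1 : M2 F) := by
  rw [LT.Quad.mul_self_eq, hX, zero_smul, add_zero]
  rfl

lemma cub_eq {X : M2 F} (hc : 1 + 3 * sq' X ≠ 0) :
    cub X = ((3 + sq' X) / (1 + 3 * sq' X)) • X := by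
  rw [cub, cubErr, ← sub_smul]
  congr 1
  field_simp
  ring

variable [CharZero F]

lemma ch_pow_three {g : GL (Fin 2) F} (hg : (ch g).trace = 0) (hc : 1 + 3 * sq' (ch g) ≠ 0) :
    ch (g ^ 3) = cub (ch g) := by
  obtain ⟨a, ha, eg⟩ := exists_eq_smul hg
  set X := ch g
  refine ch_of_eq (a := a ^ 3 * (1 + 3 * sq' X)) (mul_ne_zero (pow_ne_zero 3 ha) hc) ?_ ?_
  · rw [cub_eq hc]; simp [hg]
  rw [Units.val_pow_eq_pow_val, eg, smul_pow, cub_eq hc, mul_smul, smul_add (1 + 3 * sq' X),
    smul_smul, mul_div_cancel₀ _ hc]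
  congr 1
  have h2 := mul_self_eq_sq' hg
  rw [pow_succ, pow_two]
  simp only [Matrix.add_mul, Matrix.mul_add, one_mul, mul_one]
  rw [h2, Matrix.smul_mul, one_mul]
  module

/-- The scalars of the iteration. -/
def rootS (e : F) : ℕ → F
  | 0 => 3⁻¹
  | k + 1 => (1 + 8 * (rootS e k ^ 2 * e / (1 + 3 * (rootS e k ^ 2 * e))) * rootS e k) / 3

omit [CharZero F] in
lemma sq'_smul (s : F) (X : M2 F) : sq' (s • X) = s ^ 2 * sq' X := by
  simp [sq']

/-- The coordinates of the iteration. -/
def rootX (Y : M2 F) (k : ℕ) : M2 F := rootS (sq' Y) k • Y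

lemma rootX_succ (Y : M2 F) (k : ℕ) :
    rootX Y (k + 1) = (3 : F)⁻¹ • (Y + cubErr (rootX Y k)) := by
  simp only [rootX, cubErr, sq'_smul, rootS, smul_smul]
  rw [smul_add, smul_smul, ← add_smul]
  congr 1
  ring

open Classical in
/-- An approximate cube root. -/
def root (k : ℕ) (q : G2 F) : G2 F :=
  if h : ((1 : M2 F) + rootX (chP q) k).det = 0 then 1
  else ProjGenLinGroup.mk (GeneralLinearGroup.mkOfDetNeZero _ h)

omit [CharZero F] in
lemma rootX_conj (a : GL (Fin 2) F) (Y : M2 F) (k : ℕ) :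
    rootX (a⁻¹.val * Y * a.val) k = a⁻¹.val * rootX Y k * a.val := by
  simp only [rootX, sq', Matrix.det_units_conj', Matrix.mul_smul, Matrix.smul_mul]

/-- Roots commute with conjugation. -/
lemma root_conj (k : ℕ) (x q : G2 F) : root k (x⁻¹ * q * x) = x⁻¹ * root k q * x := by
  obtain ⟨a, rfl⟩ := ProjGenLinGroup.mk_surjective x
  have e : (1 : M2 F) + rootX (chP ((ProjGenLinGroup.mk a)⁻¹ * q * ProjGenLinGroup.mk a)) k =
      a⁻¹.val * ((1 : M2 F) + rootX (chP q) k) * a.val := by
    rw [chP_conj, rootX_conj, Matrix.mul_add, Matrix.add_mul, mul_one, Units.inv_mul]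
  unfold root
  by_cases h : ((1 : M2 F) + rootX (chP q) k).det = 0
  · rw [dif_pos h, dif_pos (by rw [e, Matrix.det_units_conj']; exact h), mul_one, inv_mul_cancel]
  · rw [dif_neg h, dif_neg (by rw [e, Matrix.det_units_conj']; exact h)]
    refine (congrArg ProjGenLinGroup.mk
      (Units.ext e : _ = a⁻¹ * GeneralLinearGroup.mkOfDetNeZero _ h * a)).trans ?_
    rw [map_mul, map_mul, map_inv]

/-- Roots commute with field maps. -/
lemma root_map {E : Type*} [Field E] [CharZero E] (φ : F →+* E) (k : ℕ) (q : G2 F) :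
    root k (g2Map φ q) = g2Map φ (root k q) := by
  have hs : ∀ (e : F) (j : ℕ), rootS (φ e) j = φ (rootS e j) := by
    intro e j
    induction j with
    | zero => simp [rootS, map_ofNat]
    | succ j ih => simp [rootS, ih, map_div₀, map_ofNat]
  have e : (1 : M2 E) + rootX (chP (g2Map φ q)) k =
      ((1 : M2 F) + rootX (chP q) k).map φ := by
    rw [chP_map, Matrix.map_add _ (map_add φ), Matrix.map_one _ (map_zero φ) (map_one φ), rootX,
      rootX, Matrix.map_smul' _ _ _ (map_mul φ), ← hs,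
      show sq' ((chP q).map φ) = φ (sq' (chP q)) by
        rw [sq', sq', map_neg, RingHom.map_det, RingHom.mapMatrix_apply]]
  have hd : ((1 : M2 E) + rootX (chP (g2Map φ q)) k).det =
      φ ((1 : M2 F) + rootX (chP q) k).det := by
    rw [e, RingHom.map_det, RingHom.mapMatrix_apply]
  unfold root
  by_cases h : ((1 : M2 F) + rootX (chP q) k).det = 0
  · rw [dif_pos h, dif_pos (by rw [hd, h, map_zero]), map_one]
  · rw [dif_neg h, dif_neg (by rw [hd, map_eq_zero]; exact h), ProjGenLinGroup.map_mk]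
    exact congrArg _ (Units.ext e)

omit [CharZero F] in
/-- A root is a combination of one and the coordinate. -/
lemma exists_root_rep (k : ℕ) (q : G2 F) : ∃ (g : GL (Fin 2) F) (s : F),
    ProjGenLinGroup.mk g = root k q ∧ g.val = (1 : M2 F) + s • chP q := by
  unfold root
  by_cases h : ((1 : M2 F) + rootX (chP q) k).det = 0
  · rw [dif_pos h]; exact ⟨1, 0, map_one _, by simp⟩
  · rw [dif_neg h]; exact ⟨_, _, rfl, rfl⟩

/-- The root of one. -/
@[simp] lemma root_one (k : ℕ) : root k (1 : G2 F) = 1 := by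
  obtain ⟨g, s, hg, e⟩ := exists_root_rep k (1 : G2 F)
  rw [chP_one, smul_zero, add_zero] at e
  rw [← hg, show g = 1 from Units.ext e, map_one]

end Alg

section Size

variable {F : Type*} [Field F] [NumberField F] {v : HeightOneSpectrum (𝓞 F)}

/-- The exponent of three. -/
def d3 (v : HeightOneSpectrum (𝓞 F)) : ℕ := (-log (v.valuation F 3)).toNat

/-- The value of three. -/
lemma val_three (v : HeightOneSpectrum (𝓞 F)) : v.valuation F 3 = exp (-(d3 v : ℤ)) :=
  val_eq_exp_toNat v three_ne_zero (by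
    rw [show (3 : F) = algebraMap (𝓞 F) F 3 from (map_ofNat _ 3).symm]
    exact v.valuation_le_one _)

/-- Multiplying by three shifts the radii. -/
lemma three_mul_gr (v : HeightOneSpectrum (𝓞 F)) (n : ℕ) :
    v.valuation F 3 * gr v n = gr v (n + d3 v) := by
  rw [val_three, gr, gr, mul_left_comm, ← WithZero.exp_add]
  congr 2
  push_cast; ring

/-- Deep enough steps. -/
def Deep (v : HeightOneSpectrum (𝓞 F)) (n : ℕ) : Prop :=
  v.valuation F 8 * (gr v n * gr v n) < v.valuation F 3

/-- Levels beyond the exponent of three are deep. -/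
lemma deep_of_le (v : HeightOneSpectrum (𝓞 F)) {n : ℕ} (h : d3 v ≤ n) : Deep v n := by
  refine lt_of_le_of_lt (mul_le_of_le_one_left zero_le ?_) ?_
  · rw [show (8 : F) = algebraMap (𝓞 F) F 8 from (map_ofNat _ 8).symm]
    exact v.valuation_le_one _
  · refine (mul_le_of_le_one_left zero_le (gr_lt_one v n).le).trans_lt ?_
    refine (mul_le_of_le_one_left zero_le (val_two_le v)).trans_lt ?_
    rw [val_three, exp_lt_exp]
    omega

variable {n k : ℕ} {X X' : M2 F} {p q : G2 F}

lemma val_sq'_le (h : Small v (gr v n) X) : v.valuation F (sq' X) ≤ gr v n * gr v n := by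
  rw [sq', Valuation.map_neg]; exact h.det

lemma val_three_mul_sq'_lt (h : Small v (gr v n) X) : v.valuation F (3 * sq' X) < 1 := by
  rw [map_mul]
  refine Right.mul_lt_one_of_le_of_lt ?_ ((val_sq'_le h).trans_lt
    (mul_lt_one_of_lt_of_le (gr_lt_one v n)
    (gr_lt_one v n).le))
  rw [val_three, ← exp_zero, exp_le_exp]; omega

lemma small_cubErr_sub (hX : Small v (gr v n) X) (hX' : Small v (gr v n) X')
    {ρ : WithZero (Multiplicative ℤ)} (h : Small v ρ (X - X')) :
    Small v (v.valuation F 8 * (gr v n * gr v n) * ρ) (cubErr X - cubErr X') := by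
  set r := gr v n
  set c := sq' X
  set c' := sq' X'
  have u : v.valuation F (1 + 3 * c) = 1 := Valuation.map_one_add_of_lt _ (val_three_mul_sq'_lt hX)
  have u' : v.valuation F (1 + 3 * c') = 1 := Valuation.map_one_add_of_lt _
    (val_three_mul_sq'_lt hX')
  have hc : v.valuation F (c - c') ≤ r * ρ := by
    have e : c - c' = ((X - X') 0 1 * X 1 0 + X' 0 1 * (X - X') 1 0) -
        ((X - X') 0 0 * X 1 1 + X' 0 0 * (X - X') 1 1) := by
      simp [c, c', sq', Matrix.det_fin_two]; ring
    rw [e]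
    refine ((v.valuation F).map_sub _ _).trans (max_le ?_ ?_) <;>
      refine ((v.valuation F).map_add _ _).trans (max_le ?_ ?_) <;> rw [map_mul]
    · rw [mul_comm]; exact mul_le_mul' (hX _ _) (h _ _)
    · exact mul_le_mul' (hX' _ _) (h _ _)
    · rw [mul_comm]; exact mul_le_mul' (hX _ _) (h _ _)
    · exact mul_le_mul' (hX' _ _) (h _ _)
  have hcv : v.valuation F (c / (1 + 3 * c)) ≤ r * r := by
    rw [map_div₀, u, div_one]; exact val_sq'_le hX
  have hd : v.valuation F (c / (1 + 3 * c) - c' / (1 + 3 * c')) ≤ r * ρ := by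
    rw [div_sub_div _ _ (one_add_ne (val_three_mul_sq'_lt hX))
      (one_add_ne (val_three_mul_sq'_lt hX')), map_div₀, map_mul, u, u', mul_one, div_one,
      show c * (1 + 3 * c') - (1 + 3 * c) * c' = c - c' by ring]
    exact hc
  have e : cubErr X - cubErr X' =
      (8 : F) • ((c / (1 + 3 * c)) • (X - X') + (c / (1 + 3 * c) - c' / (1 + 3 * c')) • X') := by
    simp only [cubErr, c, c']; module
  rw [e, mul_assoc]
  refine Small.smul (Small.add ?_ ?_) 8
  · exact (h.smul _).mono (mul_le_mul_left hcv _)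
  · exact (hX'.smul _).mono ((mul_le_mul_left hd _).trans_eq (by rw [mul_right_comm]))

/-- Cubing multiplies distances by three. -/
theorem small_cub_sub_iff (hn : Deep v n) (hX : Small v (gr v n) X) (hX' : Small v (gr v n) X')
    (s : WithZero (Multiplicative ℤ)) :
    Small v (v.valuation F 3 * s) (cub X - cub X') ↔ Small v s (X - X') := by
  have e : cub X - cub X' = (3 : F) • (X - X') - (cubErr X - cubErr X') := by
    simp only [cub]; module
  constructor
  · intro h
    by_contra hne
    obtain ⟨i, j, hρ, hs⟩ := Small.exists_gt hne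
    set ρ := v.valuation F ((X - X') i j)
    have hlt : v.valuation F ((cubErr X - cubErr X') i j) <
        v.valuation F (((3 : F) • (X - X')) i j) := by
      refine ((small_cubErr_sub hX hX' hs) i j).trans_lt ?_
      rw [Matrix.smul_apply, smul_eq_mul, map_mul]
      exact mul_lt_mul_of_pos_right hn (zero_le.trans_lt hρ)
    have h1 := h i j
    rw [e, Matrix.sub_apply, Valuation.map_sub_eq_of_lt_left _ hlt, Matrix.smul_apply, smul_eq_mul,
      map_mul] at h1
    exact absurd h1 (not_le.mpr (mul_lt_mul_of_pos_left hρ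
      (zero_lt_iff.mpr ((Valuation.ne_zero_iff _).mpr three_ne_zero))))
  · intro h
    rw [e]
    exact (h.smul 3).sub ((small_cubErr_sub hX hX' h).mono (mul_le_mul_left hn.le _))

/-- The chart of a cube. -/
lemma chP_pow_three (hq : q ∈ gam v n) : chP (q ^ 3) = cub (chP q) := by
  obtain ⟨g, rfl⟩ := ProjGenLinGroup.mk_surjective q
  obtain ⟨h1, h2⟩ := hq
  rw [← map_pow]
  simp only [chP_mk] at h1 h2 ⊢
  exact ch_pow_three h1 (one_add_ne (val_three_mul_sq'_lt h2))

/-- Cubing is injective with controlled loss. -/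
theorem pow_three_inv_mul_mem_iff (hn : Deep v n) (hp : p ∈ gam v n) (hq : q ∈ gam v n) (k : ℕ) :
    (p ^ 3)⁻¹ * q ^ 3 ∈ gam v (k + d3 v) ↔ p⁻¹ * q ∈ gam v k := by
  rw [inv_mul_mem_gam_iff ((gam v n).pow_mem hp 3) ((gam v n).pow_mem hq 3),
    inv_mul_mem_gam_iff hp hq, chP_pow_three hp, chP_pow_three hq, ← three_mul_gr]
  exact small_cub_sub_iff hn hq.2 hp.2 _

variable {Y : M2 F}

lemma small_rootX (hn : Deep v n) (hY : Small v (gr v (n + d3 v)) Y) :
    ∀ j, Small v (gr v n) (rootX Y j) ∧ Small v (gr v (n + j)) (rootX Y (j + 1) - rootX Y j) := by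
  have h3 : (3 : F) ≠ 0 := three_ne_zero
  have h3v : v.valuation F 3 ≠ 0 := (Valuation.ne_zero_iff _).mpr h3
  have hdiv : ∀ {m : ℕ} {M : M2 F}, Small v (v.valuation F 3 * gr v m) M →
      Small v (gr v m) ((3 : F)⁻¹ • M) := fun h => by
    have h' := h.smul (3 : F)⁻¹
    rwa [map_inv₀, inv_mul_cancel_left₀ h3v] at h'
  have hθ : ∀ {m : ℕ} {M : M2 F}, Small v (v.valuation F 8 * (gr v n * gr v n) * gr v m) M →
      Small v (v.valuation F 3 * gr v (m + 1)) M := fun {m M} h => by
    refine h.mono ?_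
    have hle : v.valuation F 8 * (gr v n * gr v n) ≤ v.valuation F 3 * exp (-1 : ℤ) := by
      obtain h0 | h0 := eq_or_ne (v.valuation F 8 * (gr v n * gr v n)) 0
      · rw [h0]; exact zero_le
      have hlt := hn
      rw [Deep, val_three, ← exp_log h0, exp_lt_exp] at hlt
      rw [val_three, ← exp_log h0, ← WithZero.exp_add, exp_le_exp]
      omega
    refine (mul_le_mul_left hle _).trans_eq ?_
    rw [mul_assoc, gr, gr, mul_left_comm (exp (-1 : ℤ)), ← WithZero.exp_add]
    congr 3
    push_cast; ring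
  intro j
  induction j with
  | zero =>
    have h0 : Small v (gr v n) (rootX Y 0) := by
      rw [← three_mul_gr] at hY
      exact hdiv hY
    refine ⟨h0, ?_⟩
    rw [rootX_succ]
    rw [show (3 : F)⁻¹ • (Y + cubErr (rootX Y 0)) - rootX Y 0 =
      (3 : F)⁻¹ • (cubErr (rootX Y 0) - cubErr 0) by simp [rootX, rootS, cubErr]]
    exact (hdiv (hθ (small_cubErr_sub h0 small_zero (by simpa using h0)))).mono
      (gr_anti v (by omega))
  | succ j ih =>
    have h1 : Small v (gr v n) (rootX Y (j + 1)) := by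
      have := (ih.2.mono (gr_anti v (Nat.le_add_right n j))).add ih.1
      rwa [sub_add_cancel] at this
    refine ⟨h1, ?_⟩
    rw [rootX_succ Y (j + 1)]
    nth_rw 2 [rootX_succ Y j]
    rw [← smul_sub, add_sub_add_left_eq_sub]
    exact hdiv (hθ (small_cubErr_sub h1 ih.1 ih.2))

/-- The iteration gives cube roots to every order. -/
theorem root_spec (hn : Deep v n) (hq : q ∈ gam v (n + d3 v)) (k : ℕ) :
    root k q ∈ gam v n ∧ (root k q ^ 3)⁻¹ * q ∈ gam v (n + d3 v + k) := by
  obtain ⟨h1, h2⟩ := small_rootX hn hq.2 k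
  obtain ⟨g, s, hg, e⟩ := exists_root_rep k q
  have hne : ((1 : M2 F) + rootX (chP q) k).det ≠ 0 := by
    obtain ⟨p, hp, hpe⟩ := exists_chP_eq (show (rootX (chP q) k).trace = 0 by simp [rootX, hq.1]) h1
    obtain ⟨g', -, -, e'⟩ := exists_rep hp
    rw [← hpe, ← e']
    exact Matrix.GeneralLinearGroup.det_ne_zero g'
  have hr : chP (root k q) = rootX (chP q) k := by
    rw [root, dif_neg hne, chP_mk]
    exact ch_of_eq one_ne_zero (by simp [rootX, hq.1]) (one_smul F _).symm
  have hmem : root k q ∈ gam v n := by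
    rw [mem_gam, hr]; exact ⟨by simp [rootX, hq.1], h1⟩
  refine ⟨hmem, ?_⟩
  rw [inv_mul_mem_gam_iff ((gam v n).pow_mem hmem 3) (gam_anti (Nat.le_add_right n _) hq),
    chP_pow_three hmem, hr]
  have h3 : chP q - cub (rootX (chP q) k) =
      (3 : F) • (rootX (chP q) (k + 1) - rootX (chP q) k) := by
    rw [smul_sub, rootX_succ, smul_inv_smul₀ three_ne_zero, cub]
    abel
  rw [h3]
  have := h2.smul 3
  rwa [three_mul_gr, Nat.add_right_comm] at this

/-- Roots of congruent elements are congruent. -/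
theorem root_congr (hn : Deep v n) (hp : p ∈ gam v (n + d3 v)) (hq : q ∈ gam v (n + d3 v))
    {N : ℕ} (hpq : p⁻¹ * q ∈ gam v (N + d3 v)) {k k' : ℕ} (hk : N ≤ n + k) (hk' : N ≤ n + k') :
    (root k p)⁻¹ * root k' q ∈ gam v N := by
  obtain ⟨a1, a2⟩ := root_spec hn hp k
  obtain ⟨b1, b2⟩ := root_spec hn hq k'
  rw [← pow_three_inv_mul_mem_iff hn a1 b1]
  rw [show (root k p ^ 3)⁻¹ * root k' q ^ 3 =
    ((root k p ^ 3)⁻¹ * p) * (p⁻¹ * q) * ((root k' q ^ 3)⁻¹ * q)⁻¹ by group]
  exact mul_mem (mul_mem (gam_anti (by omega) a2) hpq)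
    (inv_mem (gam_anti (by omega) b2))

end Size

end FermatAgent.LT2.Loc
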