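import Mathlib
import Fermat.Agent.LT2.Loc.Cube
import Fermat.Agent.LT.Descent.ClassesBasic

/-!
# A place of the base with one place above

The chart commutes with the generator and with the inclusion of the base; a class nearly fixed by
the generator is near the base, with the loss of the valuation of three.
-/

set_option autoImplicit false

noncomputable section

open Matrix IsDedekindDomain NumberField WithZero
open scoped MatrixGroups

namespace FermatAgent.LT2.Loc

open FermatAgent.LT (G2 g2Map sc locGL locK IsTwist PlacePair Cyc3)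

variable {K L : Type*} [Field K] [NumberField K] [Field L] [NumberField L] [Algebra K L]

/-- One place `w` above `v`, fixed by the generator. -/
structure OneAbove {K L : Type*} [Field K] [NumberField K] [Field L] [NumberField L] [Algebra K L]
    (τ : L ≃+* L) (v : HeightOneSpectrum (𝓞 K)) (w : HeightOneSpectrum (𝓞 L)) : Prop where
  twist : IsTwist K τ
  val_tau : ∀ x, w.valuation L (τ x) = w.valuation L x
  pair : PlacePair (algebraMap K L) v w

variable {τ : L ≃+* L} {v : HeightOneSpectrum (𝓞 K)} {w : HeightOneSpectrum (𝓞 L)}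

/-- The generator on matrices. -/
abbrev tM (τ : L ≃+* L) (M : M2 L) : M2 L := M.map τ

omit [NumberField L] in
/-- The twisted map is multiplicative. -/
lemma tM_mul (M N : M2 L) : tM τ (M * N) = tM τ M * tM τ N :=
  Matrix.map_mul (f := (τ : L →+* L))

omit [NumberField L] in
/-- The twisted map is semilinear. -/
lemma tM_smul (a : L) (M : M2 L) : tM τ (a • M) = τ a • tM τ M :=
  Matrix.map_smul' _ _ _ (map_mul τ)

/-- The twisted map is additive. -/
lemma tM_add (M N : M2 L) : tM τ (M + N) = tM τ M + tM τ N := Matrix.map_add _ (map_add τ) M N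

omit [NumberField L] in
/-- The twisted map fixes one. -/
lemma tM_one : tM τ (1 : M2 L) = 1 := Matrix.map_one _ (map_zero τ) (map_one τ)

/-- An element near one is a unit. -/
private lemma val_eq_one_of_near {x : L} {N : ℕ} (hx : w.valuation L (x - 1) ≤ gr w N) :
    w.valuation L x = 1 := by
  rw [show x = 1 + (x - 1) by ring]
  exact Valuation.map_one_add_of_lt _ (hx.trans_lt (gr_lt_one w N))

/-- Products of elements near one are near one. -/
private lemma val_mul_sub_one_le {x y : L} {N : ℕ} (hx : w.valuation L (x - 1) ≤ gr w N)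
    (hy : w.valuation L (y - 1) ≤ gr w N) : w.valuation L (x * y - 1) ≤ gr w N := by
  rw [show x * y - 1 = (x - 1) * y + (y - 1) by ring]
  refine ((w.valuation L).map_add _ _).trans (max_le ?_ hy)
  rw [map_mul, val_eq_one_of_near hy, mul_one]
  exact hx

namespace OneAbove

variable (h : OneAbove τ v w)

include h

lemma gmap_mem_gam_iff {q : G2 L} {n : ℕ} : g2Map (τ : L →+* L) q ∈ gam w n ↔ q ∈ gam w n :=
  map_mem_gam_iff h.val_tau

/-- The generator preserves deep subgroups. -/
lemma gmap_mem_gam {q : G2 L} {n : ℕ} (hq : q ∈ gam w n) : g2Map (τ : L →+* L) q ∈ gam w n :=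
  h.gmap_mem_gam_iff.mpr hq

/-- The inclusion of the base keeps smallness. -/
lemma small_map {n : ℕ} {Y : M2 K} (hY : Small v (gr v n) Y) :
    Small w (gr w n) (Y.map (algebraMap K L)) := fun i j => by
  obtain ⟨e, he, hx⟩ := h.pair
  rw [Matrix.map_apply, hx]
  refine (pow_le_pow_left₀ zero_le (hY i j) e).trans ?_
  rw [gr, gr, mul_pow, ← hx, map_ofNat (algebraMap K L) 2]
  exact mul_le_mul_right (pow_le_of_le_one zero_le
    (by rw [← exp_zero, exp_le_exp]; omega) he) _

/-- Deep subgroups include into deep subgroups. -/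
lemma incl_mem_gam {q : G2 K} {n : ℕ} (hq : q ∈ gam v n) :
    g2Map (algebraMap K L) q ∈ gam w n := by
  rw [mem_gam, chP_map, trace_map_eq_zero]
  exact ⟨hq.1, h.small_map hq.2⟩

/-- Deep classes of the extension coming from the base are deep in the base. -/
lemma exists_incl_bound (n : ℕ) :
    ∃ N, ∀ q : G2 K, g2Map (algebraMap K L) q ∈ gam w N → q ∈ gam v n := by
  obtain ⟨e, he, hx⟩ := h.pair
  refine ⟨e * (n + 1), fun q hq => ?_⟩
  obtain ⟨hq1, hq2⟩ := hq
  rw [chP_map] at hq1 hq2
  refine ⟨?_, fun i j => ?_⟩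
  · exact (trace_map_eq_zero _ _).1 hq1
  · have h1 := hq2 i j
    rw [Matrix.map_apply, hx, gr, show w.valuation L 2 = v.valuation K 2 ^ e by
      rw [← hx, map_ofNat (algebraMap K L) 2]] at h1
    refine (pow_le_pow_iff_left₀ zero_le zero_le he).mp (h1.trans ?_)
    rw [gr, mul_pow, ← WithZero.exp_nsmul]
    refine mul_le_mul_right (exp_le_exp.mpr ?_) _
    simp only [nsmul_eq_mul]
    push_cast
    linarith

/-- The norm of the scalar of a cocycle near one is near one. -/
private lemma val_norm_sub_one {N : ℕ} {C : GL (Fin 2) L} {a : L} {X : M2 L}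
    (hX : Small w (gr w N) X) (eC : C.val = a • ((1 : M2 L) + X))
    (hnC : C * Cyc3.gmap τ C * Cyc3.gmap τ (Cyc3.gmap τ C) = 1) :
    w.valuation L (a * τ a * τ (τ a) - 1) ≤ gr w N := by
  set X' := tM τ X
  set X'' := tM τ (tM τ X)
  set Na := a * τ a * τ (τ a)
  have eτC : (Cyc3.gmap τ C).val = τ a • ((1 : M2 L) + X') := by
    show tM τ C.val = _
    rw [eC, tM_smul, tM_add, tM_one]
  have eττC : (Cyc3.gmap τ (Cyc3.gmap τ C)).val = τ (τ a) • ((1 : M2 L) + X'') := by
    show tM τ (Cyc3.gmap τ C).val = _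
    rw [eτC, tM_smul, tM_add, tM_one]
  set P := ((1 : M2 L) + X) * (1 + X') * (1 + X'')
  have hmat : Na • P = 1 := by
    have := congrArg Units.val hnC
    rw [Units.val_mul, Units.val_mul, eC, eτC, eττC, smul_mul_smul_comm, smul_mul_smul_comm,
      Units.val_one] at this
    exact this
  have hX' : Small w (gr w N) X' := fun i j => by simpa [X', h.val_tau] using hX i j
  have hX'' : Small w (gr w N) X'' := fun i j => by simpa [X'', h.val_tau] using hX i j
  have hr1 : gr w N ≤ 1 := (gr_lt_one w N).le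
  have hone : Small w 1 ((1 : M2 L) + X') := (small_one le_rfl).add (hX'.mono hr1)
  have hone'' : Small w 1 ((1 : M2 L) + X'') := (small_one le_rfl).add (hX''.mono hr1)
  have hP : Small w (gr w N) (P - 1) := by
    rw [show P - 1 = X * (1 + X') * (1 + X'') + (X' * (1 + X'') + X'') by
      simp only [P]; noncomm_ring]
    have h1 := (hX.mul hone).mul hone''
    have h2 := hX'.mul hone''
    simp only [mul_one] at h1 h2
    exact h1.add (h2.add hX'')
  have e00 : Na * P 0 0 = 1 := by
    have := congrFun (congrFun hmat 0) 0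
    simpa using this
  have hp := hP 0 0
  rw [Matrix.sub_apply, Matrix.one_apply_eq] at hp
  have hn1 : w.valuation L Na = 1 := by
    have := congrArg (w.valuation L) e00
    rwa [map_mul, map_one, val_eq_one_of_near hp, mul_one] at this
  rw [show Na - 1 = -(Na * (P 0 0 - 1)) by linear_combination e00, Valuation.map_neg, map_mul,
    hn1, one_mul]
  exact hp

/-- By Hilbert ninety a nearly fixed class has a representative whose cocycle is near one. -/
private lemma exists_rescale {N : ℕ} (Y : GL (Fin 2) L) {a : L} (ha : a ≠ 0) {X : M2 L}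
    (hXt : X.trace = 0) (hX : Small w (gr w N) X)
    (eC : (Y⁻¹ * Cyc3.gmap τ Y).val = a • ((1 : M2 L) + X)) :
    ∃ (Y' : GL (Fin 2) L) (lam : L), ProjGenLinGroup.mk Y' = ProjGenLinGroup.mk Y ∧
      (Y'⁻¹ * Cyc3.gmap τ Y').val = lam • ((1 : M2 L) + X) ∧
      w.valuation L (lam - 1) ≤ gr w N := by
  set C := Y⁻¹ * Cyc3.gmap τ Y with hCdef
  have hnC : C * Cyc3.gmap τ C * Cyc3.gmap τ (Cyc3.gmap τ C) = 1 := by
    simp only [hCdef, map_mul, map_inv, h.twist.gmap_cube Y]
    group
  set Na := a * τ a * τ (τ a) with hNa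
  set u := 1 + X.det with hu
  have hdetX : w.valuation L X.det ≤ gr w N :=
    hX.det.trans (mul_le_of_le_one_left zero_le (gr_lt_one w N).le)
  have hu0 : u ≠ 0 := one_add_ne (hdetX.trans_lt (gr_lt_one w N))
  have hdetC : C.val.det = a ^ 2 * u := by
    rw [eC, Matrix.det_smul, Fintype.card_fin, det_one_add hXt]
  have hNu : Na ^ 2 * (u * τ u * τ (τ u)) = 1 := by
    have := congrArg (fun g : GL (Fin 2) L => g.val.det) hnC
    simp only [Units.val_mul, Matrix.det_mul, Units.val_one, Matrix.det_one, LT.det_map,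
      RingHom.coe_coe, hdetC, map_mul, map_pow] at this
    rw [← this, hNa]; ring
  have hNa0 : Na ≠ 0 := mul_ne_zero (mul_ne_zero ha (by simpa using ha)) (by simpa using ha)
  have hNaτ : τ Na = Na := by simp only [hNa, map_mul, h.twist.cube]; ring
  set η := a / (Na * u)
  have hη : η * τ η * τ (τ η) = 1 := by
    have hu1 : τ u ≠ 0 := by simpa using hu0
    have hu2 : τ (τ u) ≠ 0 := by simpa using hu0
    simp only [η, map_div₀, map_mul, hNaτ]
    field_simp
    linear_combination (-Na) * hNu
  obtain ⟨s, hs0, hs⟩ := h.twist.exists_eq_mul_map hη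
  have hη0 : η ≠ 0 := fun e => by rw [e] at hη; simp at hη
  refine ⟨Y * sc (Units.mk0 s hs0), Na * u,
    by rw [map_mul, ProjGenLinGroup.mk_scalar, mul_one], ?_,
    val_mul_sub_one_le (h.val_norm_sub_one hX eC hnC)
      (by rw [hu, add_sub_cancel_left]; exact hdetX)⟩
  rw [show Cyc3.gmap τ (Y * sc (Units.mk0 s hs0)) =
      Cyc3.gmap τ Y * sc (Units.map (τ : L →* L) (Units.mk0 s hs0)) from by
    rw [map_mul]; exact congrArg _ (LT.map_sc (τ : L →+* L) _)]
  rw [_root_.mul_inv_rev, ← map_inv, mul_assoc _ Y⁻¹, ← mul_assoc Y⁻¹, ← mul_assoc _ (Y⁻¹ * _),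
    LT.sc_comm, mul_assoc _ (sc _) (sc _), LT.sc_mul, Units.val_mul, LT.sc_val, mul_smul_comm,
    mul_one, eC, smul_smul]
  congr 1
  simp only [Units.val_mul, Units.val_inv_eq_inv_val, Units.val_mk0, Units.coe_map,
    MonoidHom.coe_coe]
  rw [show τ s = s / η from (eq_div_iff hη0).mpr (by rw [mul_comm]; exact hs)]
  simp only [η]
  field_simp

/-- The average of a cocycle near one is, up to a scalar near three, near one. -/
private lemma exists_average {N : ℕ} (hN : d3 w ≤ N) {C : GL (Fin 2) L} {lam : L} {X : M2 L}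
    (hXt : X.trace = 0) (hX : Small w (gr w N) X) (hC : C.val = lam • ((1 : M2 L) + X))
    (hlam : w.valuation L (lam - 1) ≤ gr w N) :
    ∃ M : GL (Fin 2) L, ProjGenLinGroup.mk M ∈ gam w (N - d3 w) ∧
      M.val = (1 : M2 L) + C.val + C.val * tM τ C.val := by
  set X' := tM τ X
  have hX' : Small w (gr w N) X' := fun i j => by simpa [X', h.val_tau] using hX i j
  have htX' : X'.trace = 0 := (trace_map_eq_zero (τ : L →+* L) X).2 hXt
  set m₂ := lam * τ lam * (1 + sp X X')
  set P := (1 + sp X X')⁻¹ • (X + X' + br X X')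
  have hsp := val_sp_le hX hX'
  have hsp0 : 1 + sp X X' ≠ 0 := one_add_ne (hsp.trans_lt (gr_lt_one w _))
  have hP2 : C.val * tM τ C.val = m₂ • ((1 : M2 L) + P) := by
    rw [hC, tM_smul, tM_add, tM_one, smul_mul_smul_comm]
    simp only [m₂, P]
    rw [mul_smul (lam * τ lam), smul_add (1 + sp X X'), smul_smul, mul_inv_cancel₀ hsp0, one_smul,
      Matrix.add_mul, Matrix.mul_add, Matrix.mul_add, one_mul, one_mul, mul_one,
      mul_eq_sp_add_br hXt htX', add_smul, one_smul]
    congr 1
    abel
  have hPs : Small w (gr w N) P := by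
    have := ((hX.add hX').add ((small_br hX hX').mono (gr_anti w (by omega)))).smul
      (1 + sp X X')⁻¹
    rwa [map_inv₀, Valuation.map_one_add_of_lt _ (hsp.trans_lt (gr_lt_one w _)), inv_one, one_mul]
      at this
  have hm₂ : w.valuation L (m₂ - 1) ≤ gr w N :=
    val_mul_sub_one_le (val_mul_sub_one_le hlam
      (by rw [← map_one τ, ← map_sub, h.val_tau]; exact hlam))
      (by rw [add_sub_cancel_left]; exact hsp.trans (gr_anti w (by omega)))
  -- the scalar part is three times a unit
  set den := 1 + lam + m₂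
  have h3 : w.valuation L 3 ≠ 0 := (Valuation.ne_zero_iff _).mpr three_ne_zero
  have hlt3 : gr w N < w.valuation L 3 := by
    refine (mul_le_of_le_one_left zero_le (val_two_le w)).trans_lt ?_
    rw [val_three, exp_lt_exp]
    omega
  have hden : w.valuation L den = w.valuation L 3 := by
    rw [show den = 3 + ((lam - 1) + (m₂ - 1)) by simp only [den]; ring]
    exact Valuation.map_add_eq_of_lt_left _
      ((((w.valuation L).map_add _ _).trans (max_le hlam hm₂)).trans_lt hlt3)
  have hden0 : den ≠ 0 := fun e => h3 (by rw [← hden, e, map_zero])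
  set Q := den⁻¹ • (lam • X + m₂ • P)
  have hQt : Q.trace = 0 := by simp [Q, P, hXt, htX', trace_br]
  have hQs : Small w (gr w (N - d3 w)) Q := by
    have h1 := hX.smul lam
    have h2 := hPs.smul m₂
    rw [val_eq_one_of_near hlam, one_mul] at h1
    rw [val_eq_one_of_near hm₂, one_mul] at h2
    have h4 := (h1.add h2).smul den⁻¹
    rw [map_inv₀, hden] at h4
    refine h4.mono ?_
    rw [inv_mul_le_iff₀ (zero_lt_iff.mpr h3), three_mul_gr, Nat.sub_add_cancel hN]
  obtain ⟨q, hq, hqe⟩ := exists_chP_eq hQt hQs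
  obtain ⟨G, -, hGq, hGv⟩ := exists_rep hq
  refine ⟨G * sc (Units.mk0 den hden0),
    by rwa [map_mul, ProjGenLinGroup.mk_scalar, mul_one, hGq], ?_⟩
  rw [Units.val_mul, LT.sc_val, mul_smul_comm, mul_one, Units.val_mk0, hP2, hC, hGv, hqe]
  simp only [Q]
  rw [smul_add den, smul_smul, mul_inv_cancel₀ hden0, one_smul]
  simp only [den]
  module

/-- A fixed matrix comes from the base. -/
private lemma exists_upGL_eq {B : GL (Fin 2) L} (hB : Cyc3.gmap τ B = B) :
    ∃ b : GL (Fin 2) K, GeneralLinearGroup.map (algebraMap K L) b = B := by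
  have hent : ∀ i j, ∃ k : K, algebraMap K L k = B.val i j := fun i j =>
    h.twist.surj _ (by simpa using congrArg (fun g : GL (Fin 2) L => g.val i j) hB)
  choose k hk using hent
  have hBk : (Matrix.of k).map (algebraMap K L) = B.val := by ext i j; exact hk i j
  have hdet : (Matrix.of k).det ≠ 0 := fun e => Matrix.GeneralLinearGroup.det_ne_zero B (by
    rw [← hBk, ← RingHom.mapMatrix_apply, ← RingHom.map_det, e, map_zero])
  exact ⟨GeneralLinearGroup.mkOfDetNeZero _ hdet, Units.ext hBk⟩

/-- Nearly fixed classes are near the base. -/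
theorem exists_near_base {y : G2 L} {N : ℕ} (hN : d3 w ≤ N)
    (hy : y⁻¹ * g2Map (τ : L →+* L) y ∈ gam w N) :
    ∃ b : G2 K, (g2Map (algebraMap K L) b)⁻¹ * y ∈ gam w (N - d3 w) := by
  obtain ⟨Y, rfl⟩ := ProjGenLinGroup.mk_surjective y
  set C := Y⁻¹ * Cyc3.gmap τ Y with hCdef
  obtain ⟨hy1, hy2⟩ := hy
  rw [show (ProjGenLinGroup.mk Y : G2 L)⁻¹ * g2Map (τ : L →+* L) (ProjGenLinGroup.mk Y) =
      ProjGenLinGroup.mk C by rw [ProjGenLinGroup.map_mk, hCdef, map_mul, map_inv], chP_mk]
    at hy1 hy2
  obtain ⟨a, ha, eC⟩ := exists_eq_smul hy1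
  obtain ⟨Y', lam, hY', hC', hlam⟩ := h.exists_rescale Y ha hy1 hy2 eC
  obtain ⟨M, hMq, hM⟩ := h.exists_average hN hy1 hy2 hC' hlam
  set C' := Y'⁻¹ * Cyc3.gmap τ Y' with hC'def
  -- the average makes the class fixed
  have hBfix : Cyc3.gmap τ (Y' * M) = Y' * M := by
    have hnC' : C' * Cyc3.gmap τ C' * Cyc3.gmap τ (Cyc3.gmap τ C') = 1 := by
      simp only [hC'def, map_mul, map_inv, h.twist.gmap_cube Y']
      group
    have e1 : C'.val * tM τ M.val = M.val := by
      rw [hM, tM_add, tM_add, tM_one, Matrix.mul_add, Matrix.mul_add, mul_one, tM_mul]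
      have e2 : C'.val * (tM τ C'.val * tM τ (tM τ C'.val)) = 1 := by
        rw [← mul_assoc]
        exact congrArg Units.val hnC'
      rw [e2]
      abel
    have e3 : C' * Cyc3.gmap τ M = M := Units.ext e1
    conv_rhs => rw [← e3]
    rw [hC'def, map_mul, ← mul_assoc, mul_inv_cancel_left]
  obtain ⟨b, hb⟩ := h.exists_upGL_eq hBfix
  refine ⟨ProjGenLinGroup.mk b, ?_⟩
  rw [ProjGenLinGroup.map_mk, hb, map_mul, hY', _root_.mul_inv_rev, inv_mul_cancel_right]
  exact inv_mem hMq

end OneAbove

end FermatAgent.LT2.Loc
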