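import Mathlib
import Fermat.Agent.LT2.Loc.OneAbove

/-!
# The translation of a representative

Over a place with one place above, a representative of a matrix near one is, up to twisted
conjugation in the centraliser, the cube root of its matrix, uniformly at all points which move the
matrix near one.
-/

set_option autoImplicit false

noncomputable section

open Matrix IsDedekindDomain NumberField WithZero
open scoped MatrixGroups

namespace FermatAgent.LT2.Loc

open FermatAgent.LT (G2 g2Map sc locGL locK IsTwist PlacePair Cyc3 upGL nrmGL IsRep)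

lemma commute_map_hom {E F : Type*} [Field E] [Field F] (φ : E →+* F) {A B : M2 E}
    (h : Commute A B) : Commute (A.map φ) (B.map φ) :=
  h.map (RingHom.mapMatrix φ)

/-- The determinant of a combination of three matrices. -/
lemma det_comb {F : Type*} [Field F] (c₀ c₁ c₂ : F) (X Y Z : M2 F) :
    (c₀ • X + c₁ • Y + c₂ • Z).det = c₀ ^ 2 * X.det + c₁ ^ 2 * Y.det + c₂ ^ 2 * Z.det +
      c₀ * c₁ * ((X + Y).det - X.det - Y.det) + c₀ * c₂ * ((X + Z).det - X.det - Z.det) +
      c₁ * c₂ * ((Y + Z).det - Y.det - Z.det) := by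
  simp [Matrix.det_fin_two]
  ring

/-- Nonzero trace zero matrices are not scalar. -/
lemma not_isScal_of_trace_zero {F : Type*} [Field F] [CharZero F] {X : M2 F} (h0 : X ≠ 0)
    (ht : X.trace = 0) : ¬LT.Quad.IsScal X := fun hs => h0 (by
  obtain ⟨x, rfl⟩ := LT.Quad.isScal_iff.mp hs
  rw [Matrix.trace_smul, Matrix.trace_one, Fintype.card_fin, smul_eq_mul, mul_eq_zero] at ht
  rcases ht with rfl | ht
  · rw [zero_smul]
  · norm_num at ht)

variable {K L : Type*} [Field K] [NumberField K] [Field L] [NumberField L] [Algebra K L]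
  {τ : L ≃+* L} {v : HeightOneSpectrum (𝓞 K)} {w : HeightOneSpectrum (𝓞 L)}

/-- Entries are bounded. -/
lemma exists_small (M : M2 L) :
    ∃ g : WithZero (Multiplicative ℤ), 1 ≤ g ∧ Small w g M := by
  refine ⟨max 1 (max (max (w.valuation L (M 0 0)) (w.valuation L (M 0 1)))
    (max (w.valuation L (M 1 0)) (w.valuation L (M 1 1)))), le_max_left _ _, fun i j => ?_⟩
  fin_cases i <;> fin_cases j <;> simp

lemma small_inv (G : GL (Fin 2) L) {g : WithZero (Multiplicative ℤ)} (h : Small w g G.val) :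
    Small w ((w.valuation L G.val.det)⁻¹ * g) G⁻¹.val := fun i j => by
  rw [Matrix.coe_units_inv, Matrix.inv_def, Ring.inverse_eq_inv', Matrix.smul_apply, smul_eq_mul,
    map_mul, map_inv₀]
  refine mul_le_mul_right ?_ _
  rw [Matrix.adjugate_fin_two]
  fin_cases i <;> fin_cases j <;> simp [h 0 0, h 0 1, h 1 0, h 1 1]

omit [NumberField L] in
/-- The norm of a quotient by a fixed element which commutes. -/
private lemma nrmGL_mul_inv {γ U : GL (Fin 2) L} (hc : Commute γ U) (hU : Cyc3.gmap τ U = U) :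
    nrmGL τ (γ * U⁻¹) = nrmGL τ γ * (U ^ 3)⁻¹ := by
  have c1 : Commute U (Cyc3.gmap τ γ) := by
    have := (hc.map (Cyc3.gmap τ)).symm
    rwa [hU] at this
  have c2 : Commute U (Cyc3.gmap τ (Cyc3.gmap τ γ)) := by
    have := c1.map (Cyc3.gmap τ)
    rwa [hU] at this
  simp only [nrmGL, map_mul, map_inv, hU]
  rw [mul_assoc γ, ← mul_assoc U⁻¹, c1.inv_left.eq, ← inv_pow, pow_succ, pow_two,
    show γ * (Cyc3.gmap τ γ * U⁻¹ * U⁻¹) * (Cyc3.gmap τ (Cyc3.gmap τ γ) * U⁻¹) =
      γ * Cyc3.gmap τ γ * ((U⁻¹ * U⁻¹) * Cyc3.gmap τ (Cyc3.gmap τ γ)) * U⁻¹ by group,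
    (c2.inv_left.mul_left c2.inv_left).eq]
  group

omit [NumberField L] in
/-- An element whose norm is `a • (1 + E)`, divided by `a` and multiplied by its determinant, has
norm near one. -/
private lemma norm_scaled {ν : GL (Fin 2) L} {a : L} (ha : a ≠ 0) (hτa : τ a = a) {E : M2 L}
    (hE : E.trace = 0) (hN : (nrmGL τ ν).val = a • ((1 : M2 L) + E)) :
    (ν.val.det / a) • ν.val * tM τ ((ν.val.det / a) • ν.val) *
      tM τ (tM τ ((ν.val.det / a) • ν.val)) = 1 + (E.det • 1 + (1 + E.det) • E) := by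
  have e2 : ν.val.det * τ ν.val.det * τ (τ ν.val.det) = a ^ 2 * (1 + E.det) := by
    rw [← LT.det_nrmGL, hN, Matrix.det_smul, Fintype.card_fin, det_one_add hE]
  have e1 : ν.val * tM τ ν.val * tM τ (tM τ ν.val) = a • ((1 : M2 L) + E) := hN
  simp only [tM_smul, smul_mul_smul_comm]
  rw [e1, smul_smul, show ν.val.det / a * τ (ν.val.det / a) * τ (τ (ν.val.det / a)) * a =
    1 + E.det by simp only [map_div₀, hτa]; field_simp; linear_combination e2]
  module

/-- The root of an element of the base divides it up to a multiple of its coordinate. -/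
private lemma exists_chP_quot {n : ℕ} {q u : G2 K} (hq : q ∈ gam v n) (hu : u ∈ gam v n) {s : K}
    (hs : chP u = s • chP q) : ∃ ε : K, chP ((u ^ 3)⁻¹ * q) = ε • chP q := by
  have hp := (gam v n).inv_mem ((gam v n).pow_mem hu 3)
  rw [chP_mul hp.1 hq.1 (one_add_ne ((val_sp_le hp.2 hq.2).trans_lt (gr_lt_one v _))),
    chP_inv ((gam v n).pow_mem hu 3).1, chP_pow_three hu, hs]
  generalize hX : chP q = X
  rw [show cub (s • X) =
    (3 * s - 8 * (sq' (s • X) / (1 + 3 * sq' (s • X))) * s) • X by simp only [cub, cubErr]; module]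
  generalize 3 * s - 8 * (sq' (s • X) / (1 + 3 * sq' (s • X))) * s = t
  generalize (1 + sp (-(t • X)) X)⁻¹ = z
  refine ⟨z * (1 - t), ?_⟩
  simp only [br, neg_mul, mul_neg, Matrix.smul_mul, Matrix.mul_smul]
  module

/-- An element of the base is, up to a scalar, the cube of its root times a factor near one. -/
private lemma exists_root_factor {n : ℕ} (hn : Deep v n) {q : G2 K} (hq : q ∈ gam v (n + d3 v))
    {Δ : GL (Fin 2) K} (hΔ : Δ ∈ locGL v) (hΔq : ProjGenLinGroup.mk Δ = q)
    (hΔv : Δ.val = 1 + chP q) (c : Kˣ) (k : ℕ) :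
    ∃ (U : GL (Fin 2) K) (s a ε : K), U ∈ locGL v ∧ ProjGenLinGroup.mk U = root k q ∧
      U.val = 1 + s • chP q ∧ a ≠ 0 ∧ (Δ * sc c * (U ^ 3)⁻¹).val = a • (1 + ε • chP q) ∧
      Small v (gr v k) (ε • chP q) ∧ v.valuation K a = v.valuation K (c : K) := by
  obtain ⟨hu1, hu2⟩ := root_spec hn hq k
  obtain ⟨U, s, hU, hUv⟩ := exists_root_rep k q
  have hsX : chP (root k q) = s • chP q := by
    rw [← hU, chP_mk]
    exact ch_of_eq one_ne_zero (by simp [hq.1]) ((one_smul K _).trans hUv.symm).symm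
  have hUL : U ∈ locGL v := by
    obtain ⟨U', hU', -, hU'v⟩ := exists_rep hu1
    rwa [show U = U' from Units.ext (by rw [hUv, hU'v, hsX])]
  set R := Δ * sc c * (U ^ 3)⁻¹
  have hRP : ProjGenLinGroup.mk R = (root k q ^ 3)⁻¹ * q := by
    have hc : Commute Δ U := Commute.units_val_iff.mp (by
      rw [hΔv, hUv]
      exact ((Commute.one_left _).add_left ((Commute.one_right _).add_right
        ((Commute.refl _).smul_right s))))
    have hc' : Commute q (root k q) := by
      have := hc.map ProjGenLinGroup.mk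
      rwa [hΔq, hU] at this
    simp only [R, map_mul, map_inv, map_pow, ProjGenLinGroup.mk_scalar, mul_one, hU, hΔq]
    exact ((hc'.pow_right 3).inv_right).eq
  obtain ⟨ε, hε⟩ := exists_chP_quot (gam_anti (Nat.le_add_right n _) hq) hu1 hsX
  obtain ⟨a, ha, eR⟩ := exists_eq_smul (g := R) (by rw [← chP_mk, hRP]; exact hu2.1)
  rw [← chP_mk, hRP, hε] at eR
  have hεs := hu2.2
  rw [hε] at hεs
  replace hεs := hεs.mono (gr_anti v (by omega : k ≤ n + d3 v + k))
  refine ⟨U, s, a, ε, hUL, hU, hUv, ha, eR, hεs, ?_⟩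
  have hU3 : v.valuation K ((U ^ 3)⁻¹).val.det = 1 :=
    ((locGL v).inv_mem ((locGL v).pow_mem hUL 3)).2
  have h2 := congrArg (fun A : M2 K => v.valuation K A.det) eR
  simp only [R, Units.val_mul, Matrix.det_mul, LT.det_sc, map_mul, map_pow, hΔ.2, hU3, one_mul,
    mul_one, Matrix.det_smul, Fintype.card_fin] at h2
  rw [det_one_add (by simp [hq.1]), Valuation.map_one_add_of_lt _ (hεs.det.trans_lt
    (mul_lt_one_of_lt_of_le (gr_lt_one v k) (gr_lt_one v k).le)), mul_one] at h2
  exact ((pow_left_inj₀ zero_le zero_le two_ne_zero).mp h2).symm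

/-- A small matrix commuting with a traceless one has small coordinates in it. -/
private lemma exists_small_coords {X W : M2 L} (hXt : X.trace = 0) {i j : Fin 2} (hij : X i j ≠ 0)
    (hX1 : w.valuation L (X i j) ≤ 1) (hWX : Commute W X) {M : ℕ}
    (hW : Small w (gr w M * w.valuation L 2 * w.valuation L (X i j)) W) :
    ∃ p q : L, W = p • 1 + q • X ∧ w.valuation L p < 1 ∧ w.valuation L q ≤ gr w M := by
  obtain ⟨p, q, hpq⟩ := CFT.Selmer.exists_eq_add_of_commute
    (not_isScal_of_trace_zero (fun e => hij (by rw [e]; rfl)) hXt) hWX.symm.eq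
  set Q := gr w M * w.valuation L 2 * w.valuation L (X i j)
  have hp : p = W.trace / 2 := by
    rw [hpq, Matrix.trace_add, Matrix.trace_smul, Matrix.trace_smul, hXt, Matrix.trace_one]
    simp
  have hp2 : w.valuation L p ≤ Q / w.valuation L 2 := by
    rw [hp, map_div₀, div_eq_mul_inv, div_eq_mul_inv]
    exact mul_le_mul_left hW.trace _
  refine ⟨p, q, hpq, hp2.trans_lt (lt_of_le_of_lt ?_ (gr_lt_one w M)), ?_⟩
  · rw [div_le_iff₀ (zero_lt_iff.mpr (val_two_ne w))]
    exact mul_le_of_le_one_right zero_le hX1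
  have hq : w.valuation L (q * X i j) ≤ Q / w.valuation L 2 := by
    rw [show q * X i j = W i j - p * (1 : M2 L) i j by rw [hpq]; simp]
    refine ((w.valuation L).map_sub _ _).trans (max_le ((hW _ _).trans ?_) ?_)
    · rw [le_div_iff₀ (zero_lt_iff.mpr (val_two_ne w))]
      exact mul_le_of_le_one_right zero_le (val_two_le w)
    · rw [map_mul]
      refine (mul_le_of_le_one_right zero_le ?_).trans hp2
      exact small_one (le_refl (1 : WithZero (Multiplicative ℤ))) i j
  rw [map_mul] at hq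
  refine le_of_mul_le_mul_right (hq.trans_eq ?_)
    (zero_lt_iff.mpr ((Valuation.ne_zero_iff _).mpr hij))
  simp only [Q]
  field_simp [val_two_ne w]

/-- An element with small coordinates in the coordinate of `P` is deep wherever `P` is moved near
one. -/
private lemma conj_mem_gam_of_coords {W : GL (Fin 2) L} {X : M2 L} {p q : L} (hXt : X.trace = 0)
    {M : ℕ} (hp : w.valuation L p < 1) (hq : w.valuation L q ≤ gr w M)
    (hW : W.val - 1 = p • 1 + q • X) {P y : G2 L} (hP : chP P = X) {n : ℕ}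
    (hy : y⁻¹ * P * y ∈ gam w n) : y⁻¹ * ProjGenLinGroup.mk W * y ∈ gam w M := by
  obtain ⟨Y, rfl⟩ := ProjGenLinGroup.mk_surjective y
  have hp0 : 1 + p ≠ 0 := one_add_ne hp
  have hW1 : W.val = (1 + p) • ((1 : M2 L) + (q / (1 + p)) • X) := by
    rw [sub_eq_iff_eq_add'.mp hW, smul_add, smul_smul, mul_div_cancel₀ _ hp0, add_smul, one_smul,
      add_assoc]
  have hch : chP (ProjGenLinGroup.mk W) = (q / (1 + p)) • X := by
    rw [chP_mk]
    exact ch_of_eq hp0 (by simp [hXt]) hW1
  have hy2 := hy.2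
  rw [chP_conj, hP] at hy2
  rw [mem_gam, chP_conj, hch, Matrix.mul_smul, Matrix.smul_mul]
  refine ⟨by rw [Matrix.trace_smul, Matrix.trace_units_conj', hXt, smul_zero], ?_⟩
  refine ((hy2.mono (gr_lt_one w _).le).smul _).mono ?_
  rw [map_div₀, Valuation.map_one_add_of_lt _ hp, div_one, mul_one]
  exact hq

omit [NumberField K] [NumberField L] in
/-- Commuting with an element of the base is commuting with its coordinate. -/
private lemma commute_upGL_iff {δ Δ : GL (Fin 2) K} {μ : Kˣ} {X : M2 K} (A : GL (Fin 2) L)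
    (hμ : Δ * sc μ = δ) (hΔ : Δ.val = 1 + X) :
    Commute A (upGL δ) ↔ Commute A.val (X.map (algebraMap K L)) := by
  rw [← Commute.units_val_iff, show (upGL (L := L) δ).val =
      algebraMap K L (μ : K) • ((1 : M2 L) + X.map (algebraMap K L)) from by
    show δ.val.map (algebraMap K L) = _
    rw [← hμ, Units.val_mul, LT.sc_val, mul_smul_comm, mul_one, hΔ,
      Matrix.map_smul' _ _ _ (map_mul _), Matrix.map_add _ (map_add _),
      Matrix.map_one _ (map_zero _) (map_one _)]]
  refine ⟨fun h1 => ?_, fun h1 => ((Commute.one_right _).add_right h1).smul_right _⟩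
  have h2 := h1.smul_right (algebraMap K L (μ : K))⁻¹
  rw [inv_smul_smul₀ (by simp)] at h2
  simpa using h2.sub_right (Commute.one_right A.val)

namespace OneAbove

variable (h : OneAbove τ v w)

include h

/-- A representative divided by the root is, up to a scalar, an element with norm near one. -/
private lemma exists_norm_near_one {n : ℕ} (hn : Deep v n) {q : G2 K}
    (hq : q ∈ gam v (n + d3 v)) {Δ : GL (Fin 2) K} (hΔ : Δ ∈ locGL v)
    (hΔq : ProjGenLinGroup.mk Δ = q) (hΔv : Δ.val = 1 + chP q) {c : Kˣ} {γ : GL (Fin 2) L}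
    (hγX : Commute γ.val ((chP q).map (algebraMap K L)))
    (hγn : nrmGL τ γ = upGL (Δ * sc c)) {g : WithZero (Multiplicative ℤ)}
    (hg : Small w g γ.val) (k : ℕ) :
    ∃ (U : GL (Fin 2) K) (ν : GL (Fin 2) L) (E : M2 L), ProjGenLinGroup.mk U = root k q ∧
      (∀ Z, Commute Z ((chP q).map (algebraMap K L)) → Commute (upGL (L := L) U).val Z) ∧
      ProjGenLinGroup.mk ν = ProjGenLinGroup.mk γ * (ProjGenLinGroup.mk (upGL U))⁻¹ ∧
      Commute ν.val ((chP q).map (algebraMap K L)) ∧
      Small w (w.valuation L γ.val.det / w.valuation L (algebraMap K L c) * g) ν.val ∧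
      Small w (gr w k) E ∧ Commute E ((chP q).map (algebraMap K L)) ∧
      ν.val * tM τ ν.val * tM τ (tM τ ν.val) = 1 + E := by
  obtain ⟨U, s, a, ε, hU, hUq, hUv, ha, hR, hεs, hva⟩ := exists_root_factor hn hq hΔ hΔq hΔv c k
  set φ := algebraMap K L with hφ
  set XL := (chP q).map φ
  set UL : GL (Fin 2) L := upGL U
  have hULv : UL.val = (1 : M2 L) + φ s • XL := by
    show U.val.map φ = _
    rw [hUv, Matrix.map_add _ (map_add φ), Matrix.map_one _ (map_zero φ) (map_one φ),
      Matrix.map_smul' _ _ _ (map_mul φ)]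
  have hUX : Commute UL.val XL := by
    rw [hULv]; exact (Commute.one_left _).add_left ((Commute.refl XL).smul_left _)
  have hUγ : Commute γ UL := Commute.units_val_iff.mp (by
    rw [hULv]; exact (Commute.one_right _).add_right (hγX.smul_right _))
  set Eε : M2 L := (ε • chP q).map φ with hEε
  have hEX : Commute Eε XL := by
    rw [hEε, Matrix.map_smul' _ _ _ (map_mul φ)]; exact (Commute.refl XL).smul_left _
  have hEs : Small w (gr w k) Eε := h.small_map hεs
  have hEt : Eε.trace = 0 := (trace_map_eq_zero _ _).2 (by simp [hq.1])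
  have hN : (nrmGL τ (γ * UL⁻¹)).val = φ a • ((1 : M2 L) + Eε) := by
    rw [nrmGL_mul_inv hUγ (h.twist.gmap_up U), hγn,
      show upGL (L := L) (Δ * sc c) * (UL ^ 3)⁻¹ = upGL (Δ * sc c * (U ^ 3)⁻¹) by
        simp only [UL, upGL, map_mul, map_inv, map_pow]]
    show (Δ * sc c * (U ^ 3)⁻¹).val.map φ = _
    rw [hR, Matrix.map_smul' _ _ _ (map_mul φ), Matrix.map_add _ (map_add φ),
      Matrix.map_one _ (map_zero φ) (map_one φ)]
  have hUi := (locGL w).inv_mem ((h.pair.map_mem_locGL_iff U).mpr hU)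
  have hlam : (γ * UL⁻¹).val.det / φ a ≠ 0 :=
    div_ne_zero (Matrix.GeneralLinearGroup.det_ne_zero _) (by simpa using ha)
  have hν : (γ * UL⁻¹ * sc (Units.mk0 _ hlam)).val =
      ((γ * UL⁻¹).val.det / φ a) • (γ * UL⁻¹).val := by
    rw [Units.val_mul, LT.sc_val, mul_smul_comm, mul_one, Units.val_mk0]
  refine ⟨U, γ * UL⁻¹ * sc (Units.mk0 _ hlam), Eε.det • 1 + (1 + Eε.det) • Eε, hUq,
    fun Z hZ => hULv ▸ (Commute.one_left _).add_left (hZ.symm.smul_left _),
    by rw [map_mul, ProjGenLinGroup.mk_scalar, mul_one, map_mul, map_inv], ?_, ?_, ?_, ?_, ?_⟩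
  · rw [hν, Units.val_mul]
    exact (hγX.mul_left hUX.units_inv_left).smul_left _
  · have hd : w.valuation L UL⁻¹.val.det = 1 := hUi.2
    have hva' : w.valuation L (φ a) = w.valuation L (φ c) := by
      obtain ⟨e, -, hx⟩ := h.pair
      rw [hx, hx, hva]
    rw [hν, Units.val_mul]
    refine ((hg.mul hUi.1).smul _).mono ?_
    rw [map_div₀, Matrix.det_mul, map_mul, hd, hva', mul_one, mul_one]
  · have hd : w.valuation L Eε.det < 1 :=
      hEs.det.trans_lt (mul_lt_one_of_lt_of_le (gr_lt_one w k) (gr_lt_one w k).le)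
    refine (((small_one le_rfl).smul _).mono ?_).add ((hEs.smul _).mono ?_)
    · rw [mul_one]; exact hEs.det.trans (mul_le_of_le_one_left zero_le (gr_lt_one w k).le)
    · rw [Valuation.map_one_add_of_lt _ hd, one_mul]
  · exact ((Commute.one_left XL).smul_left _).add_left (hEX.smul_left _)
  · rw [hν]
    exact norm_scaled (by simpa using ha) (h.twist.fix a) hEt hN

/-- An element with norm near one is, by a bounded resolvent, a coboundary up to a factor near
one. -/
private lemma exists_resolvent {ν : GL (Fin 2) L} {E X : M2 L}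
    (hN : ν.val * tM τ ν.val * tM τ (tM τ ν.val) = 1 + E) (hνX : Commute ν.val X)
    (hEX : Commute E X) (hXτ : tM τ X = X) {α c : Fin 3 → L} (h0 : ∑ j, c j * α j = 1)
    (h1 : ∑ j, c j * τ (α j) = 0) (h2 : ∑ j, c j * τ (τ (α j)) = 0)
    {A C G r : WithZero (Multiplicative ℤ)} (hA : ∀ i, w.valuation L (α i) ≤ A)
    (hC : ∀ i, w.valuation L (c i) ≤ C) (hG : 1 ≤ G) (hνG : Small w G ν.val)
    (hE : Small w r E) :
    ∃ T : GL (Fin 2) L, Commute T.val X ∧ Commute ((T⁻¹ * ν * Cyc3.gmap τ T).val - 1) X ∧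
      Small w (A * (C * C) * (A * (G * G)) * r) ((T⁻¹ * ν * Cyc3.gmap τ T).val - 1) := by
  obtain ⟨x, hxA, hTx⟩ := Cyc3.exists_orb_large (ψ := fun Z => ν.val * tM τ Z) (w.valuation L)
    (fun u v => by simp only [tM_add, mul_add]) (fun l y => by simp only [tM_smul, mul_smul_comm])
    det_comb (e := (1 : M2 L)) Matrix.det_one h0 h1 h2 hA hC
  set T := Cyc3.orb (fun Z => ν.val * tM τ Z) (x • (1 : M2 L)) with hT
  have hψT : ν.val * tM τ T = T + x • E := by
    have e3 : ν.val * (tM τ ν.val * (tM τ (tM τ ν.val) * tM τ (tM τ (tM τ (x • 1))))) =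
        x • ((1 : M2 L) + E) := by
      rw [← mul_assoc, ← mul_assoc, hN]
      simp only [tM_smul, h.twist.cube, tM_one, mul_smul_comm, mul_one]
    simp only [hT, Cyc3.orb, tM_add, tM_mul, mul_add]
    rw [e3, smul_add]
    abel
  have hτX : ∀ {Z : M2 L}, Commute Z X → Commute (tM τ Z) X := fun hZ => by
    have := commute_map_hom (τ : L →+* L) hZ
    rwa [show X.map (τ : L →+* L) = X from hXτ] at this
  have hTX : Commute T X := by
    have hs : Commute (x • (1 : M2 L)) X := (Commute.one_left X).smul_left x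
    simp only [hT, Cyc3.orb]
    exact (hs.add_left (hνX.mul_left (hτX hs))).add_left
      (hνX.mul_left (hτX (hνX.mul_left (hτX hs))))
  have hTs : Small w (A * (G * G)) T := by
    have hx1 : Small w A (x • (1 : M2 L)) :=
      ((small_one (le_refl (1 : WithZero (Multiplicative ℤ)))).smul x).mono (by rwa [mul_one])
    have hτs : ∀ {R : WithZero (Multiplicative ℤ)} {Z : M2 L}, Small w R Z → Small w R (tM τ Z) :=
      fun hZ i j => by simpa [h.val_tau] using hZ i j
    simp only [hT, Cyc3.orb]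
    refine ((hx1.mono (le_mul_of_one_le_right zero_le (one_le_mul hG hG))).add
      ((hνG.mul (hτs hx1)).mono ?_)).add ((hνG.mul (hτs (hνG.mul (hτs hx1)))).mono ?_)
    · rw [mul_comm]; exact mul_le_mul_right (le_mul_of_one_le_left zero_le hG) _
    · rw [← mul_assoc, mul_comm]
  have hTn : T.det ≠ 0 := fun e => by
    rw [e, map_zero, mul_zero] at hTx
    exact (not_le.mpr zero_lt_one) hTx
  set TG := GeneralLinearGroup.mkOfDetNeZero T hTn
  have hTGv : TG.val = T := rfl
  have hW : (TG⁻¹ * ν * Cyc3.gmap τ TG).val - 1 = TG⁻¹.val * (x • E) := by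
    rw [Units.val_mul, Units.val_mul, mul_assoc, show (Cyc3.gmap τ TG).val = tM τ T from rfl, hψT,
      mul_add, ← hTGv, Units.inv_mul, add_sub_cancel_left]
  refine ⟨TG, hTX, hW ▸ (Commute.units_inv_left (by exact hTX)).mul_left (hEX.smul_left x),
    hW ▸ ((small_inv TG hTs).mul ((hE.smul x).mono (mul_le_mul_left hxA _))).mono ?_⟩
  rw [← mul_assoc, hTGv]
  refine mul_le_mul_left ?_ _
  rw [mul_comm A (C * C), mul_comm _ A, mul_comm (C * C) A, mul_assoc A (C * C)]
  refine mul_le_mul_right (mul_le_mul_left ?_ _) _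
  rw [inv_le_iff_one_le_mul₀ (zero_lt_iff.mpr ((Valuation.ne_zero_iff _).mpr hTn))]
  exact hTx

/-- Near one, after translating by an element of the centraliser the twisted representative is
congruent to an iterated cube root of the element. -/
theorem exists_translate_near {nv : ℕ} (hnv : Deep v nv) {nw : ℕ} (hnw : Deep w nw)
    {δ : GL (Fin 2) K} {γ : GL (Fin 2) L} (hδ : (ProjGenLinGroup.mk δ : G2 K) ≠ 1)
    (hγ : IsRep τ δ γ) (hnear : (ProjGenLinGroup.mk δ : G2 K) ∈ gam v (nv + d3 v)) (M : ℕ) :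
    ∃ t : GL (Fin 2) L, Commute t (upGL δ) ∧ ∀ y : G2 L,
      y⁻¹ * g2Map (algebraMap K L) (ProjGenLinGroup.mk δ) * y ∈ gam w (nw + d3 w) →
      (root M (y⁻¹ * g2Map (algebraMap K L) (ProjGenLinGroup.mk δ) * y))⁻¹ *
        (y⁻¹ * ((ProjGenLinGroup.mk t)⁻¹ * ProjGenLinGroup.mk γ *
          g2Map (τ : L →+* L) (ProjGenLinGroup.mk t)) * y) ∈ gam w M := by
  classical
  set φ := algebraMap K L with hφ
  -- the matrix of the base
  set dP : G2 K := ProjGenLinGroup.mk δ
  obtain ⟨Δ, hΔ, hΔδ, hΔv⟩ := exists_rep hnear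
  obtain ⟨μ, hμ⟩ := Matrix.ProjGenLinGroup.mk_eq_mk_iff.mp hΔδ
  have hμ' : Δ * sc μ = δ := hμ
  set XL : M2 L := (chP dP).map φ
  have hXLt : XL.trace = 0 := (trace_map_eq_zero _ _).2 hnear.1
  obtain ⟨i₀, j₀, hij₀⟩ : ∃ i j, XL i j ≠ 0 := by
    by_contra hne
    push Not at hne
    refine hδ (chP_eq_zero (Matrix.ext fun i j => φ.injective ?_))
    rw [Matrix.zero_apply, map_zero]
    exact hne i j
  have hcomm := fun A : GL (Fin 2) L => commute_upGL_iff (K := K) A hμ' hΔv
  obtain ⟨r, hr⟩ := hγ.nrm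
  have hγn : nrmGL τ γ = upGL (Δ * sc (r * μ)) := by
    rw [hr, show Δ * sc (r * μ) = δ * sc r by rw [← hμ', mul_assoc Δ, LT.sc_mul, mul_comm μ r]]
    show _ = GeneralLinearGroup.map φ (δ * sc r)
    rw [map_mul, LT.map_sc]
  -- bounds independent of the order
  obtain ⟨g, -, hgs⟩ := exists_small (w := w) γ.val
  set G := max 1 (w.valuation L γ.val.det / w.valuation L (φ ↑(r * μ)) * g)
  obtain ⟨α, c, h0, h1, h2⟩ := h.twist.exists_dual
  set A := max 1 (max (max (w.valuation L (α 0)) (w.valuation L (α 1))) (w.valuation L (α 2)))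
  set C := max 1 (max (max (w.valuation L (c 0)) (w.valuation L (c 1))) (w.valuation L (c 2)))
  have hA : ∀ i, w.valuation L (α i) ≤ A := fun i => by fin_cases i <;> simp [A]
  have hC : ∀ i, w.valuation L (c i) ≤ C := fun i => by fin_cases i <;> simp [C]
  set B := A * (C * C) * (A * (G * G))
  have hB0 : B ≠ 0 := by simp [B, A, C, G]
  set Q := gr w M * w.valuation L 2 * w.valuation L (XL i₀ j₀)
  have hQ0 : Q ≠ 0 := mul_ne_zero (mul_ne_zero (gr_ne_zero w M) (val_two_ne w))
    ((Valuation.ne_zero_iff _).mpr hij₀)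
  -- the order
  obtain ⟨k₀, hk₀⟩ := exists_gr_le w (r := Q / B) (div_ne_zero hQ0 hB0)
  set k := max k₀ M
  obtain ⟨U, ν, E, hU, hUX, hνγ, hνX, hνG, hEs, hEX, hN⟩ :=
    h.exists_norm_near_one hnv hnear hΔ hΔδ hΔv ((hcomm γ).mp hγ.comm) hγn hgs k
  have hXτ : tM τ XL = XL := by ext i j; exact h.twist.fix _
  obtain ⟨T, hTX, hWX, hWs⟩ := h.exists_resolvent hN hνX hEX hXτ h0 h1 h2 hA hC
    (le_max_left _ _) (hνG.mono (le_max_right _ _)) hEs
  have hkQ : B * gr w k ≤ Q := by
    have := (gr_anti w (le_max_left k₀ M)).trans hk₀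
    rwa [le_div_iff₀ (zero_lt_iff.mpr hB0), mul_comm] at this
  obtain ⟨p, q, hpq, hp, hq⟩ := exists_small_coords hXLt hij₀
    ((h.pair.le_one_iff _).mpr ((hnear.2 i₀ j₀).trans (gr_lt_one v _).le)) hWX (hWs.mono hkQ)
  set uP : G2 L := g2Map φ (root k dP)
  set tP : G2 L := ProjGenLinGroup.mk T
  set ρ : G2 L := ProjGenLinGroup.mk (T⁻¹ * ν * Cyc3.gmap τ T)
  have huP : uP = ProjGenLinGroup.mk (upGL U) := by
    simp only [uP, ← hU, ProjGenLinGroup.map_mk]
    rfl
  have hmain : tP⁻¹ * ProjGenLinGroup.mk γ * g2Map (τ : L →+* L) tP = ρ * uP := by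
    have hc : Commute (upGL (L := L) U).val (tM τ T.val) := by
      have := commute_map_hom (τ : L →+* L) hTX
      rw [show XL.map (τ : L →+* L) = XL from hXτ] at this
      exact hUX _ this
    have hc' : Commute uP (ProjGenLinGroup.mk (Cyc3.gmap τ T)) := by
      rw [huP]; exact (Commute.units_val_iff.mp hc).map ProjGenLinGroup.mk
    simp only [ρ, map_mul, map_inv, hνγ, ← huP]
    rw [mul_assoc _ _ uP, ← hc'.eq]
    simp only [tP, ProjGenLinGroup.map_mk]
    group
  refine ⟨T, (hcomm T).mpr hTX, fun y hy => ?_⟩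
  rw [hmain]
  set z := y⁻¹ * g2Map φ dP * y with hzdef
  have huy : y⁻¹ * uP * y = root k z := by
    rw [hzdef, root_conj, root_map]
  have hρy : y⁻¹ * ρ * y ∈ gam w M :=
    conj_mem_gam_of_coords hXLt hp hq hpq (chP_map φ dP) hy
  have hroot : (root M z)⁻¹ * root k z ∈ gam w M :=
    root_congr hnw hy hy (by rw [inv_mul_cancel]; exact one_mem _) (Nat.le_add_left M nw)
      (le_trans (le_max_right k₀ M) (Nat.le_add_left _ nw))
  rw [show (root M z)⁻¹ * (y⁻¹ * (ρ * uP) * y) =
    ((root M z)⁻¹ * root k z) * ((y⁻¹ * uP * y)⁻¹ * (y⁻¹ * ρ * y) * (y⁻¹ * uP * y)) by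
      rw [← huy]; group]
  refine mul_mem hroot ?_
  rw [huy]
  exact conj_mem_gam (gam_le_locK (root_spec hnw hy k).1) hρy

end OneAbove

end FermatAgent.LT2.Loc
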