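import Mathlib
import Fermat.Agent.LT2.Loc.Translate

/-!
# Matching at a place with one place above

An arbitrary function supported near one and invariant under a level descends to a function on the
base; a weight concentrated on a translate of the base glues their orbital sums.
-/

set_option autoImplicit false

noncomputable section

open Matrix IsDedekindDomain NumberField WithZero
open scoped MatrixGroups

namespace FermatAgent.LT2.Loc

open FermatAgent.LT (G2 g2Map sc locGL locK IsTwist PlacePair Cyc3 upGL nrmGL IsRep tnrm fibMap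
  fibMap_mk fibMap_injective proj_eq_iff)

variable {K L : Type*} [Field K] [NumberField K] [Field L] [NumberField L] [Algebra K L]

/-- The data of the matching at one place: a function above, the levels, the depths. -/
structure Descent {K L : Type*} [Field K] [NumberField K] [Field L] [NumberField L] [Algebra K L]
    (τ : L ≃+* L) (v : HeightOneSpectrum (𝓞 K)) (w : HeightOneSpectrum (𝓞 L)) where
  place : OneAbove τ v w
  /-- the level above -/
  UL : Subgroup (G2 L)
  /-- the level below -/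
  UK : Subgroup (G2 K)
  /-- the support -/
  a₀ : ℕ
  /-- a step inside the level above -/
  N : ℕ
  /-- a step containing the level below -/
  NK : ℕ
  supp_ge : 3 * d3 w ≤ a₀
  supp_v : ∀ q : G2 K, g2Map (algebraMap K L) q ∈ gam w a₀ → q ∈ gam v (2 * d3 v)
  inner : ∀ q : G2 K, g2Map (algebraMap K L) q ∈ gam w (a₀ - 2 * d3 w) → q ∈ gam v 0
  UL_le : UL ≤ gam w a₀
  le_UL : gam w N ≤ UL
  UL_tau : ∀ u, g2Map (τ : L →+* L) u ∈ UL ↔ u ∈ UL
  UK_le : UK ≤ gam v NK
  UK_index : UK.relIndex (locK v) ≠ 0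
  NK_ge : a₀ + N + 2 * d3 v ≤ NK
  N_ge : a₀ ≤ N
  /-- the function -/
  F : G2 L → ℂ
  F_supp : ∀ g, F g ≠ 0 → g ∈ gam w a₀
  F_left : ∀ u ∈ UL, ∀ g, F (u * g) = F g
  F_right : ∀ u ∈ UL, ∀ g, F (g * u) = F g

namespace Descent

variable {τ : L ≃+* L} {v : HeightOneSpectrum (𝓞 K)} {w : HeightOneSpectrum (𝓞 L)}
  (D : Descent τ v w)

/-- The depth of the conjugators. -/
def c : ℕ := D.a₀ - 2 * d3 w

/-- The classes of the base in the step. -/
def base : Subgroup (G2 K) := (gam w D.c).comap (g2Map (algebraMap K L))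

lemma UL_le_c : D.UL ≤ gam w D.c := D.UL_le.trans (gam_anti (Nat.sub_le _ _))

lemma UK_le_base : D.UK ≤ D.base := fun q hq =>
  D.place.incl_mem_gam (gam_anti (le_trans (Nat.sub_le _ _) (by have := D.NK_ge; omega))
    (D.UK_le hq))

lemma base_le : D.base ≤ gam v 0 := D.inner

lemma relIndex_base_ne : D.UK.relIndex D.base ≠ 0 := fun h0 => D.UK_index (by
  have := Subgroup.relIndex_mul_relIndex _ _ _ D.UK_le_base (D.base_le.trans gam_le_locK)
  rw [h0, zero_mul] at this
  exact this.symm)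

/-- The weight of a coset of the base. -/
def α : ℝ := (D.UK.relIndex D.base : ℝ)⁻¹

lemma N_le_NK : D.N + d3 v ≤ D.NK := by have := D.NK_ge; omega

variable [Fintype (gam w D.c ⧸ D.UL.subgroupOf (gam w D.c))]

open Classical in
/-- The descended function. -/
def fv (g : G2 K) : ℂ :=
  if g ∈ gam v (2 * d3 v) then
    (D.α : ℂ) * ∑ q : gam w D.c ⧸ D.UL.subgroupOf (gam w D.c),
      D.F ((q.out : G2 L)⁻¹ * g2Map (algebraMap K L) (root D.N g) *
        g2Map (τ : L →+* L) (q.out : G2 L))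
  else 0

lemma fv_mul_of_deep {u : G2 K} (hu2 : u ∈ gam v (2 * d3 v)) (huN : u ∈ gam v (D.N + d3 v))
    (g : G2 K) : D.fv (g * u) = D.fv g := by
  classical
  have hiff : g * u ∈ gam v (2 * d3 v) ↔ g ∈ gam v (2 * d3 v) :=
    (gam v (2 * d3 v)).mul_mem_cancel_right hu2
  unfold fv
  by_cases hg : g ∈ gam v (2 * d3 v)
  swap
  · rw [if_neg hg, if_neg (hiff.not.mpr hg)]
  rw [if_pos hg, if_pos (hiff.mpr hg)]
  congr 1
  refine Finset.sum_congr rfl fun q _ => ?_
  have hdeep : Deep v (d3 v) := deep_of_le v le_rfl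
  have hg' : g ∈ gam v (d3 v + d3 v) := by rwa [← two_mul]
  have hgu' : g * u ∈ gam v (d3 v + d3 v) := by rw [← two_mul]; exact hiff.mpr hg
  have hc : (root D.N g)⁻¹ * root D.N (g * u) ∈ gam v D.N :=
    root_congr hdeep hg' hgu' (by rwa [inv_mul_cancel_left]) (Nat.le_add_left _ _)
      (Nat.le_add_left _ _)
  have hy : g2Map (τ : L →+* L) (q.out : G2 L) ∈ gam w D.c := D.place.gmap_mem_gam q.out.2
  have h2 := conj_mem_gam (gam_le_locK hy) (D.place.incl_mem_gam hc)
  rw [← D.F_right _ (D.le_UL h2)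
    ((q.out : G2 L)⁻¹ * g2Map (algebraMap K L) (root D.N g) * g2Map (τ : L →+* L) (q.out : G2 L))]
  congr 1
  simp only [map_mul, map_inv]
  group

omit [Fintype ((gam w D.c) ⧸ D.UL.subgroupOf (gam w D.c))] in
lemma mem_deep_of_mem_UK {u : G2 K} (hu : u ∈ D.UK) :
    u ∈ gam v (2 * d3 v) ∧ u ∈ gam v (D.N + d3 v) :=
  ⟨gam_anti (by have := D.NK_ge; omega) (D.UK_le hu), gam_anti D.N_le_NK (D.UK_le hu)⟩

/-- The descended function is right invariant. -/
lemma fv_mul_right {u : G2 K} (hu : u ∈ D.UK) (g : G2 K) : D.fv (g * u) = D.fv g :=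
  D.fv_mul_of_deep (D.mem_deep_of_mem_UK hu).1 (D.mem_deep_of_mem_UK hu).2 g

/-- The descended function is left invariant. -/
lemma fv_mul_left {u : G2 K} (hu : u ∈ D.UK) (g : G2 K) : D.fv (u * g) = D.fv g := by
  obtain ⟨h2, hN⟩ := D.mem_deep_of_mem_UK hu
  by_cases hg : g ∈ gam v (2 * d3 v)
  · rw [show u * g = g * (g⁻¹ * u * g) by group]
    exact D.fv_mul_of_deep (conj_mem_gam (gam_le_locK hg) h2) (conj_mem_gam (gam_le_locK hg) hN) g
  · unfold fv
    rw [if_neg hg, if_neg (mt ((gam v (2 * d3 v)).mul_mem_cancel_left h2).1 hg)]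

/-- A translation: up to the level, the representative is the root of its matrix. -/
structure Transl (γ : G2 L) (δ : G2 K) (t : G2 L) : Prop where
  nrm : tnrm τ γ = g2Map (algebraMap K L) δ
  comm : Commute t (g2Map (algebraMap K L) δ)
  near : ∀ y : G2 L, y⁻¹ * g2Map (algebraMap K L) δ * y ∈ gam w D.a₀ →
    (root D.N (y⁻¹ * g2Map (algebraMap K L) δ * y))⁻¹ *
      (y⁻¹ * (t⁻¹ * γ * g2Map (τ : L →+* L) t) * y) ∈ gam w D.N

variable {D}

/-- The coset of the base in the step above. -/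
def up (D : Descent τ v w) (z : G2 K ⧸ D.UK) : G2 L ⧸ gam w D.c :=
  Quotient.map' (g2Map (algebraMap K L)) (fun a b hab => by
    rw [QuotientGroup.leftRel_apply] at hab ⊢
    rw [← map_inv, ← map_mul]
    exact D.UK_le_base hab) z

lemma up_mk (D : Descent τ v w) (b : G2 K) :
    up D (QuotientGroup.mk b) = QuotientGroup.mk (g2Map (algebraMap K L) b) := rfl

lemma up_eq_iff (D : Descent τ v w) (b : G2 K) (z : G2 K ⧸ D.UK) :
    up D z = QuotientGroup.mk (g2Map (algebraMap K L) b) ↔
      Subgroup.quotientMapOfLE D.UK_le_base z = QuotientGroup.mk b := by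
  induction z using QuotientGroup.induction_on with | H a =>
  rw [up_mk, Subgroup.quotientMapOfLE_apply_mk, QuotientGroup.eq, QuotientGroup.eq, ← map_inv,
    ← map_mul]
  rfl

open Classical in
/-- The weight. -/
def A (D : Descent τ v w) (t : G2 L) (x : G2 L ⧸ D.UL) (z : G2 K ⧸ D.UK) : ℝ :=
  if Subgroup.quotientMapOfLE D.UL_le_c (t⁻¹ • x) = up D z then D.α else 0

/-- The kernel above along a twisted class, on cosets. -/
def upVal (D : Descent τ v w) (γ : G2 L) (x : G2 L ⧸ D.UL) : ℂ :=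
  Quotient.liftOn' x (fun a => D.F (a⁻¹ * γ * g2Map (τ : L →+* L) a)) fun a b hab => by
    rw [QuotientGroup.leftRel_apply] at hab
    obtain ⟨u, hu, rfl⟩ : ∃ u ∈ D.UL, b = a * u := ⟨_, hab, (mul_inv_cancel_left a b).symm⟩
    rw [_root_.mul_inv_rev, map_mul,
      show u⁻¹ * a⁻¹ * γ * (g2Map (τ : L →+* L) a * g2Map (τ : L →+* L) u) =
        u⁻¹ * (a⁻¹ * γ * g2Map (τ : L →+* L) a) * g2Map (τ : L →+* L) u by group,
      D.F_right _ ((D.UL_tau u).mpr hu), D.F_left _ (inv_mem hu)]

lemma upVal_mk (D : Descent τ v w) (γ a : G2 L) :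
    upVal D γ (QuotientGroup.mk a) = D.F (a⁻¹ * γ * g2Map (τ : L →+* L) a) := rfl

/-- The kernel below at a point, on cosets. -/
def downVal (D : Descent τ v w) [Fintype (gam w D.c ⧸ D.UL.subgroupOf (gam w D.c))] (δ : G2 K)
    (z : G2 K ⧸ D.UK) : ℂ :=
  Quotient.liftOn' z (fun b => D.fv (b⁻¹ * δ * b)) fun a b hab => by
    rw [QuotientGroup.leftRel_apply] at hab
    obtain ⟨u, hu, rfl⟩ : ∃ u ∈ D.UK, b = a * u := ⟨_, hab, (mul_inv_cancel_left a b).symm⟩
    rw [_root_.mul_inv_rev, show u⁻¹ * a⁻¹ * δ * (a * u) = u⁻¹ * (a⁻¹ * δ * a) * u by group,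
      D.fv_mul_right hu, D.fv_mul_left (inv_mem hu)]

/-- The orbital kernel of the descended function at a coset. -/
lemma downVal_mk (D : Descent τ v w) [Fintype (gam w D.c ⧸ D.UL.subgroupOf (gam w D.c))]
    (δ b : G2 K) :
    downVal D δ (QuotientGroup.mk b) = D.fv (b⁻¹ * δ * b) := rfl

variable {γ t : G2 L} {δ : G2 K}

omit [Fintype ((gam w D.c) ⧸ D.UL.subgroupOf (gam w D.c))] in
/-- On the translate of the base the kernel above is the root. -/
lemma upVal_translate (ht : D.Transl γ δ t) (b : G2 K) {q : G2 L} (hq : q ∈ gam w D.c)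
    (hb : g2Map (algebraMap K L) (b⁻¹ * δ * b) ∈ gam w D.a₀) :
    upVal D γ (QuotientGroup.mk (t * g2Map (algebraMap K L) b * q)) =
      D.F (q⁻¹ * g2Map (algebraMap K L) (root D.N (b⁻¹ * δ * b)) * g2Map (τ : L →+* L) q) := by
  set φb := g2Map (algebraMap K L) b
  set y := φb * q with hy
  have hτb : g2Map (τ : L →+* L) φb = φb := D.place.twist.g2Map_incl b
  have hz : y⁻¹ * g2Map (algebraMap K L) δ * y =
      q⁻¹ * g2Map (algebraMap K L) (b⁻¹ * δ * b) * q := by
    simp only [hy, φb, map_mul, map_inv]; group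
  have hn := ht.near y (by rw [hz]; exact conj_mem_gam (gam_le_locK hq) hb)
  rw [hz, root_conj, root_map] at hn
  set r := g2Map (algebraMap K L) (root D.N (b⁻¹ * δ * b))
  have hs : q⁻¹ * g2Map (τ : L →+* L) q ∈ gam w D.c :=
    mul_mem (inv_mem hq) (D.place.gmap_mem_gam hq)
  rw [upVal_mk, mul_assoc t, ← hy, ← D.F_right _ (D.le_UL (conj_mem_gam (gam_le_locK hs) hn))
    (q⁻¹ * r * g2Map (τ : L →+* L) q)]
  congr 1
  simp only [hy, map_mul, hτb]
  group

omit [Fintype ((gam w D.c) ⧸ D.UL.subgroupOf (gam w D.c))] in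
/-- The support above is in the translate of the base. -/
lemma exists_base_of_upVal_ne (ht : D.Transl γ δ t) {a : G2 L}
    (ha : upVal D γ (QuotientGroup.mk a) ≠ 0) :
    ∃ b : G2 K, (g2Map (algebraMap K L) b)⁻¹ * (t⁻¹ * a) ∈ gam w D.c ∧
      g2Map (algebraMap K L) (b⁻¹ * δ * b) ∈ gam w D.a₀ := by
  set y := t⁻¹ * a with hy
  have hg := D.F_supp _ ha
  set g := a⁻¹ * γ * g2Map (τ : L →+* L) a with hgdef
  have hgy : g = y⁻¹ * (t⁻¹ * γ * g2Map (τ : L →+* L) t) * g2Map (τ : L →+* L) y := by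
    simp only [hgdef, hy, map_mul, map_inv]; group
  have hd : y⁻¹ * g2Map (algebraMap K L) δ * y = g * g2Map (τ : L →+* L) g *
      g2Map (τ : L →+* L) (g2Map (τ : L →+* L) g) := by
    rw [hy, _root_.mul_inv_rev, inv_inv, ← mul_assoc _ t⁻¹ a,
      show a⁻¹ * t * g2Map (algebraMap K L) δ * t⁻¹ = a⁻¹ * (t * g2Map (algebraMap K L) δ * t⁻¹) by
        group, ht.comm.eq, mul_inv_cancel_right, ← ht.nrm, tnrm]
    simp only [hgdef, map_mul, map_inv, D.place.twist.g2Map_cube a]
    group
  have hz : y⁻¹ * g2Map (algebraMap K L) δ * y ∈ gam w D.a₀ := by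
    rw [hd]
    exact mul_mem (mul_mem hg (D.place.gmap_mem_gam hg))
      (D.place.gmap_mem_gam (D.place.gmap_mem_gam hg))
  have hn := ht.near y hz
  set n := D.a₀ - d3 w
  have hdeep : Deep w n := deep_of_le w (by have := D.supp_ge; omega)
  have hz' : y⁻¹ * g2Map (algebraMap K L) δ * y ∈ gam w (n + d3 w) := gam_anti
    (by have := D.supp_ge; omega) hz
  have hr := (root_spec hdeep hz' D.N).1
  have hs : y⁻¹ * g2Map (τ : L →+* L) y ∈ gam w n := by
    have hN : n ≤ D.N := (Nat.sub_le _ _).trans D.N_ge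
    have e : y⁻¹ * g2Map (τ : L →+* L) y =
        ((root D.N (y⁻¹ * g2Map (algebraMap K L) δ * y))⁻¹ *
          (y⁻¹ * (t⁻¹ * γ * g2Map (τ : L →+* L) t) * y))⁻¹ *
        ((root D.N (y⁻¹ * g2Map (algebraMap K L) δ * y))⁻¹ * g) := by
      rw [hgy]; group
    rw [e]
    exact mul_mem (inv_mem (gam_anti hN hn)) (mul_mem (inv_mem hr) (gam_anti (Nat.sub_le _ _) hg))
  obtain ⟨b, hb⟩ := D.place.exists_near_base (by have := D.supp_ge; omega) hs
  have hc : n - d3 w = D.c := by simp only [n, c]; omega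
  rw [hc] at hb
  refine ⟨b, hb, ?_⟩
  have := conj_mem_gam (gam_le_locK (inv_mem hb)) hz
  convert this using 1
  simp only [map_mul, map_inv]
  group

omit [Fintype ((gam w D.c) ⧸ D.UL.subgroupOf (gam w D.c))] in
/-- A deep value below comes from a deep value of the root. -/
lemma incl_mem_of_sum_term {g : G2 K} (hg : g ∈ gam v (2 * d3 v)) {q : G2 L} (hq : q ∈ gam w D.c)
    (h : D.F (q⁻¹ * g2Map (algebraMap K L) (root D.N g) * g2Map (τ : L →+* L) q) ≠ 0) :
    g2Map (algebraMap K L) g ∈ gam w D.a₀ := by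
  set φ := g2Map (algebraMap K L)
  set r := root D.N g
  have hm := D.F_supp _ h
  set m := q⁻¹ * φ r * g2Map (τ : L →+* L) q with hmdef
  have hcube : m * g2Map (τ : L →+* L) m * g2Map (τ : L →+* L) (g2Map (τ : L →+* L) m) =
      q⁻¹ * φ (r ^ 3) * q := by
    simp only [hmdef, map_mul, map_inv, pow_succ, pow_zero, one_mul, D.place.twist.g2Map_cube, φ,
      D.place.twist.g2Map_incl]
    group
  have h3 : φ (r ^ 3) ∈ gam w D.a₀ := by
    have h1 : q⁻¹ * φ (r ^ 3) * q ∈ gam w D.a₀ := hcube ▸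
      mul_mem (mul_mem hm (D.place.gmap_mem_gam hm))
        (D.place.gmap_mem_gam (D.place.gmap_mem_gam hm))
    have h2 := conj_mem_gam (gam_le_locK (inv_mem hq)) h1
    rwa [inv_inv, show q * (q⁻¹ * φ (r ^ 3) * q) * q⁻¹ = φ (r ^ 3) by group] at h2
  have hg' : g ∈ gam v (d3 v + d3 v) := by rwa [← two_mul]
  have h4 := (root_spec (deep_of_le v le_rfl) hg' D.N).2
  have h5 : φ ((r ^ 3)⁻¹ * g) ∈ gam w D.a₀ :=
    D.place.incl_mem_gam (gam_anti (le_trans D.N_ge (Nat.le_add_left _ _)) h4)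
  have := mul_mem h3 h5
  rwa [← map_mul, mul_inv_cancel_left] at this

/-- The descended function vanishes off a deep subgroup. -/
lemma fv_eq_zero {g : G2 K} (hg : g2Map (algebraMap K L) g ∉ gam w D.a₀) : D.fv g = 0 := by
  classical
  unfold fv
  split_ifs with h
  · rw [Finset.sum_eq_zero fun q _ => ?_, mul_zero]
    by_contra hne
    exact hg (incl_mem_of_sum_term h q.out.2 hne)
  · rfl

open Classical in
lemma A_eq (t : G2 L) (x : G2 L ⧸ D.UL) (b : G2 K) :
    A D t x (QuotientGroup.mk b) =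
      if ∃ k, t • fibMap D.UL_le_c (g2Map (algebraMap K L) b) k = x then D.α else 0 := by
  classical
  unfold A
  refine if_congr ?_ rfl rfl
  rw [up_mk, proj_eq_iff]
  exact exists_congr fun k => by rw [eq_inv_smul_iff]

omit [Fintype ((gam w D.c) ⧸ D.UL.subgroupOf (gam w D.c))] in
/-- The matching weights are nonnegative. -/
theorem A_nonneg (t : G2 L) (x : G2 L ⧸ D.UL) (z : G2 K ⧸ D.UK) : 0 ≤ A D t x z := by
  unfold A
  split_ifs
  · exact inv_nonneg.mpr (Nat.cast_nonneg _)
  · exact le_rfl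

/-- Finitely many cosets above contribute. -/
theorem finite_x (t γ : G2 L) (z : G2 K ⧸ D.UK) :
    {x | upVal D γ x * (A D t x z : ℂ) ≠ 0}.Finite := by
  classical
  induction z using QuotientGroup.induction_on with | H b =>
  refine (Set.finite_range fun k => t • fibMap D.UL_le_c (g2Map (algebraMap K L) b) k).subset
    fun x hx => ?_
  rw [Set.mem_ofPred_eq, A_eq] at hx
  by_contra hne
  rw [Set.mem_range] at hne
  exact hx (by rw [if_neg hne]; simp)

/-- **Matching.** The weighted orbital sum above is the descended value below. -/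
theorem sum_x (ht : D.Transl γ δ t) (z : G2 K ⧸ D.UK) :
    ∑' x, upVal D γ x * (A D t x z : ℂ) = downVal D δ z := by
  classical
  induction z using QuotientGroup.induction_on with | H b =>
  set φ := g2Map (algebraMap K L)
  set f := fun k => t • fibMap D.UL_le_c (φ b) k
  have hf : Function.Injective f :=
    (MulAction.injective t).comp (fibMap_injective D.UL_le_c _)
  rw [tsum_eq_sum (s := Finset.univ.image f) fun x hx => by
    rw [A_eq, if_neg (by simpa [f] using hx)]; simp,
    Finset.sum_image fun _ _ _ _ e => hf e, downVal_mk]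
  have hA : ∀ k, A D t (f k) (QuotientGroup.mk b) = D.α := fun k => by
    rw [A_eq, if_pos ⟨k, rfl⟩]
  have hterm : ∀ k, f k = QuotientGroup.mk (t * φ b * ((k.out : gam w D.c) : G2 L)) := fun k => by
    conv_lhs => rw [← QuotientGroup.out_eq' k]
    rw [show f (QuotientGroup.mk k.out) =
      t • (QuotientGroup.mk (φ b * ((k.out : gam w D.c) : G2 L)) : G2 L ⧸ D.UL) from rfl,
      MulAction.Quotient.smul_mk, smul_eq_mul, mul_assoc]
  by_cases hb : φ (b⁻¹ * δ * b) ∈ gam w D.a₀
  · rw [fv, if_pos (D.supp_v _ hb), Finset.mul_sum]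
    refine Finset.sum_congr rfl fun k _ => ?_
    rw [hA, hterm, upVal_translate ht b k.out.2 hb, mul_comm]
  · rw [fv_eq_zero hb]
    refine Finset.sum_eq_zero fun k _ => ?_
    rw [hterm]
    by_contra hne
    obtain ⟨b', h1, h2⟩ := exists_base_of_upVal_ne ht (left_ne_zero_of_mul hne)
    rw [mul_assoc t, inv_mul_cancel_left, ← mul_assoc] at h1
    have h3 : (φ b')⁻¹ * φ b ∈ gam w D.c := by
      simpa [mul_assoc] using mul_mem h1 (inv_mem k.out.2)
    have h4 := conj_mem_gam (gam_le_locK h3) h2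
    apply hb
    convert h4 using 1
    simp only [φ, map_mul, map_inv]
    group

section

omit [Fintype ((gam w D.c) ⧸ D.UL.subgroupOf (gam w D.c))]

lemma up_fibre (b : G2 K) :
    {z | up D z = QuotientGroup.mk (g2Map (algebraMap K L) b)} =
      Set.range (fibMap D.UK_le_base b) := by
  ext z
  rw [Set.mem_ofPred_eq, up_eq_iff, proj_eq_iff, Set.mem_range]

lemma up_fibre_finite (d : G2 L ⧸ gam w D.c) : {z | up D z = d}.Finite := by
  have : (D.UK.subgroupOf D.base).FiniteIndex := ⟨D.relIndex_base_ne⟩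
  have := Fintype.ofFinite (D.base ⧸ D.UK.subgroupOf D.base)
  by_cases h : ∃ z, up D z = d
  · obtain ⟨z, rfl⟩ := h
    induction z using QuotientGroup.induction_on with | H b =>
    rw [up_mk, up_fibre]
    exact Set.finite_range _
  · exact Set.finite_empty.subset fun z hz => h ⟨z, hz⟩

/-- Finitely many cosets below contribute. -/
theorem finite_z (t : G2 L) (x : G2 L ⧸ D.UL) : {z | A D t x z ≠ 0}.Finite := by
  classical
  refine (up_fibre_finite (Subgroup.quotientMapOfLE D.UL_le_c (t⁻¹ • x))).subset fun z hz => ?_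
  rw [Set.mem_ofPred_eq] at hz ⊢
  unfold A at hz
  exact (of_not_not fun h => hz (if_neg h)).symm

/-- The weights of a contributing coset sum to one. -/
theorem sum_z (ht : D.Transl γ δ t) (x : G2 L ⧸ D.UL) (hx : upVal D γ x ≠ 0) :
    HasSum (A D t x) 1 := by
  classical
  have : (D.UK.subgroupOf D.base).FiniteIndex := ⟨D.relIndex_base_ne⟩
  have := Fintype.ofFinite (D.base ⧸ D.UK.subgroupOf D.base)
  induction x using QuotientGroup.induction_on with | H a =>
  obtain ⟨b, hb, -⟩ := exists_base_of_upVal_ne ht hx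
  have hproj : Subgroup.quotientMapOfLE D.UL_le_c (t⁻¹ • (QuotientGroup.mk a : G2 L ⧸ D.UL)) =
      QuotientGroup.mk (g2Map (algebraMap K L) b) := by
    rw [MulAction.Quotient.smul_mk, smul_eq_mul, Subgroup.quotientMapOfLE_apply_mk, eq_comm,
      QuotientGroup.eq]
    exact hb
  have e : ∀ z, A D t (QuotientGroup.mk a) z =
      if ∃ k, fibMap D.UK_le_base b k = z then D.α else 0 := fun z => by
    unfold A
    refine if_congr ?_ rfl rfl
    rw [hproj, eq_comm, up_eq_iff, proj_eq_iff]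
  have hs : HasSum (A D t (QuotientGroup.mk a))
      (∑ z ∈ Finset.univ.image (fibMap D.UK_le_base b), A D t (QuotientGroup.mk a) z) :=
    hasSum_sum_of_ne_finset_zero fun z hz => by rw [e, if_neg (by simpa using hz)]
  convert hs
  rw [Finset.sum_image fun _ _ _ _ h => fibMap_injective D.UK_le_base b h,
    Finset.sum_congr rfl fun k _ => (e _).trans (if_pos ⟨k, rfl⟩), Finset.sum_const,
    Finset.card_univ, nsmul_eq_mul, α,
    show Fintype.card (D.base ⧸ D.UK.subgroupOf D.base) = D.UK.relIndex D.base by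
      rw [Subgroup.relIndex, Subgroup.index, Nat.card_eq_fintype_card],
    mul_inv_cancel₀]
  exact_mod_cast D.relIndex_base_ne

/-- The weights are equivariant for the centraliser. -/
theorem equiv {g : G2 K} (hg : Commute (g2Map (algebraMap K L) g) t) (x : G2 L ⧸ D.UL)
    (z : G2 K ⧸ D.UK) : A D t (g2Map (algebraMap K L) g • x) (g • z) = A D t x z := by
  classical
  unfold A
  refine if_congr ?_ rfl rfl
  induction x using QuotientGroup.induction_on with | H a =>
  induction z using QuotientGroup.induction_on with | H b =>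
  simp only [MulAction.Quotient.smul_mk, smul_eq_mul, up_mk, Subgroup.quotientMapOfLE_apply_mk,
    map_mul, QuotientGroup.eq]
  rw [← mul_assoc t⁻¹, ← (hg.inv_right).eq]
  simp only [_root_.mul_inv_rev, mul_assoc, inv_mul_cancel_left]

end

/-- The weights sit on boundedly many translates. -/
theorem exists_finset (D : Descent τ v w) [Fintype (gam w D.c ⧸ D.UL.subgroupOf (gam w D.c))] :
    ∃ Q : Finset (G2 L), ∀ (t : G2 L) x z, A D t x z ≠ 0 →
      ∀ g : G2 K, (QuotientGroup.mk g : G2 K ⧸ D.UK) = z →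
        ∃ q ∈ Q, x = QuotientGroup.mk (t * g2Map (algebraMap K L) g * q) := by
  classical
  refine ⟨Finset.univ.image fun k : gam w D.c ⧸ D.UL.subgroupOf (gam w D.c) =>
    ((k.out : gam w D.c) : G2 L), fun t x z hne g hg => ?_⟩
  subst hg
  rw [A_eq] at hne
  obtain ⟨k, rfl⟩ := of_not_not fun h => hne (if_neg h)
  refine ⟨_, Finset.mem_image.mpr ⟨k, Finset.mem_univ _, rfl⟩, ?_⟩
  conv_lhs => rw [← QuotientGroup.out_eq' k]
  rw [fibMap_mk, MulAction.Quotient.smul_mk, smul_eq_mul, mul_assoc]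

end Descent

end FermatAgent.LT2.Loc
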