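import Mathlib
import Fermat.Agent.LT.Descent.LocKer
import Fermat.Agent.LT2.Loc.Match

/-!
# Kernels of functions on the group, and the idempotent of a character

A finitely supported function, invariant on both sides under the level, is an invariant kernel; a
character of a larger subgroup trivial on the level gives an idempotent one.
-/

set_option autoImplicit false

noncomputable section

open Matrix IsDedekindDomain NumberField
open scoped MatrixGroups ComplexConjugate

namespace FermatAgent.LT2.Loc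

open FermatAgent.LT (G2 g2Map Level LocKer fibMap fibMap_mk fibMap_injective)

section Index

variable {G G' : Type*} [Group G] [Group G']

/-- The index is kept along a map with dense image. -/
lemma relIndex_eq_of_dense (f : G' →* G) {U H : Subgroup G} {U' H' : Subgroup G'}
    (hU : ∀ g, f g ∈ U ↔ g ∈ U') (hH : ∀ g, f g ∈ H ↔ g ∈ H') (hUH : U ≤ H)
    (hd : ∀ h ∈ H, ∃ g, h⁻¹ * f g ∈ U) : U'.relIndex H' = U.relIndex H := by
  refine Nat.card_congr (Equiv.ofBijective (Quotient.map' (fun g : H' => (⟨f g, (hH g).2 g.2⟩ : H))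
    fun a b hab => ?_) ⟨fun a b hab => ?_, fun c => ?_⟩)
  · rw [QuotientGroup.leftRel_apply, Subgroup.mem_subgroupOf] at hab ⊢
    simpa using (hU _).2 hab
  · induction a using QuotientGroup.induction_on with | H a =>
    induction b using QuotientGroup.induction_on with | H b =>
    have h := QuotientGroup.eq.mp (show (QuotientGroup.mk (⟨f a, (hH a).2 a.2⟩ : H) :
      H ⧸ U.subgroupOf H) = QuotientGroup.mk ⟨f b, (hH b).2 b.2⟩ from hab)
    rw [Subgroup.mem_subgroupOf] at h
    rw [QuotientGroup.eq, Subgroup.mem_subgroupOf]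
    exact (hU _).1 (by simpa using h)
  · induction c using QuotientGroup.induction_on with | H h =>
    obtain ⟨g, hg⟩ := hd h h.2
    have hgH : g ∈ H' := (hH g).1 (by
      have := H.mul_mem h.2 (hUH hg)
      rwa [mul_inv_cancel_left] at this)
    refine ⟨QuotientGroup.mk ⟨g, hgH⟩, ?_⟩
    show (QuotientGroup.mk (⟨f g, _⟩ : H) : H ⧸ U.subgroupOf H) = QuotientGroup.mk h
    rw [QuotientGroup.eq, Subgroup.mem_subgroupOf]
    simpa using U.inv_mem hg

/-- A finite index in a subgroup gives finitely many cosets inside it. -/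
lemma finite_cosets {U H : Subgroup G} (hUH : U ≤ H) (hf : U.relIndex H ≠ 0) (a : G) :
    {d : G ⧸ U | ∃ b, QuotientGroup.mk b = d ∧ a⁻¹ * b ∈ H}.Finite := by
  have : (U.subgroupOf H).FiniteIndex := ⟨hf⟩
  have := Fintype.ofFinite (H ⧸ U.subgroupOf H)
  refine (Set.finite_range (fibMap hUH a)).subset ?_
  rintro _ ⟨b, rfl, hb⟩
  exact ⟨QuotientGroup.mk ⟨_, hb⟩, by rw [fibMap_mk]; simp⟩

/-- A character of a subgroup, trivial on a smaller one of finite index. -/
structure ChOn (H U : Subgroup G) (χ : G → ℂ) : Prop where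
  le : U ≤ H
  fin : U.relIndex H ≠ 0
  map_mul : ∀ g ∈ H, ∀ h ∈ H, χ (g * h) = χ g * χ h
  map_one' : ∀ u ∈ U, χ u = 1
  norm : ∀ g ∈ H, conj (χ g) * χ g = 1

open Classical in
/-- The idempotent of a character, as a function. -/
def eFun (H U : Subgroup G) (χ : G → ℂ) (g : G) : ℂ :=
  if g ∈ H then (U.relIndex H : ℂ)⁻¹ * χ g else 0

variable {H U : Subgroup G} {χ : G → ℂ}

/-- The values of the idempotent. -/
lemma eFun_of_mem {g : G} (hg : g ∈ H) : eFun H U χ g = (U.relIndex H : ℂ)⁻¹ * χ g := if_pos hg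

lemma eFun_of_notMem {g : G} (hg : g ∉ H) : eFun H U χ g = 0 := if_neg hg

/-- The idempotent is supported on the subgroup. -/
lemma mem_of_eFun_ne {g : G} (hg : eFun H U χ g ≠ 0) : g ∈ H :=
  of_not_not fun h => hg (eFun_of_notMem h)

namespace ChOn

variable (hc : ChOn H U χ)

include hc

lemma eFun_mul_right {q : G} (hq : q ∈ H) (g : G) : eFun H U χ (g * q) = eFun H U χ g * χ q := by
  by_cases hg : g ∈ H
  · rw [eFun_of_mem hg, eFun_of_mem (mul_mem hg hq), hc.map_mul g hg q hq, mul_assoc]
  · rw [eFun_of_notMem hg, zero_mul, eFun_of_notMem fun h => hg (by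
      simpa using mul_mem h (inv_mem hq))]

lemma eFun_mul_left {q : G} (hq : q ∈ H) (g : G) : eFun H U χ (q * g) = χ q * eFun H U χ g := by
  by_cases hg : g ∈ H
  · rw [eFun_of_mem hg, eFun_of_mem (mul_mem hq hg), hc.map_mul q hq g hg, mul_left_comm]
  · rw [eFun_of_notMem hg, mul_zero, eFun_of_notMem fun h => hg (by
      simpa using mul_mem (inv_mem hq) h)]

/-- The idempotent is right invariant. -/
lemma eFun_right {u : G} (hu : u ∈ U) (g : G) : eFun H U χ (g * u) = eFun H U χ g := by
  rw [hc.eFun_mul_right (hc.le hu), hc.map_one' u hu, mul_one]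

/-- The idempotent is left invariant. -/
lemma eFun_left {u : G} (hu : u ∈ U) (g : G) : eFun H U χ (u * g) = eFun H U χ g := by
  rw [hc.eFun_mul_left (hc.le hu), hc.map_one' u hu, one_mul]

/-- The character of an inverse is the conjugate. -/
lemma map_inv {g : G} (hg : g ∈ H) : χ g⁻¹ = conj (χ g) := by
  have h := hc.map_mul _ (inv_mem hg) g hg
  rw [inv_mul_cancel, hc.map_one' 1 (one_mem _)] at h
  have h0 : χ g ≠ 0 := fun e => by rw [e, mul_zero] at h; exact one_ne_zero h
  exact mul_right_cancel₀ h0 (h.symm.trans (hc.norm g hg).symm)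

lemma conj_eFun (g : G) : conj (eFun H U χ g) = eFun H U χ g⁻¹ := by
  by_cases hg : g ∈ H
  · rw [eFun_of_mem hg, eFun_of_mem (inv_mem hg), hc.map_inv hg]
    simp
  · rw [eFun_of_notMem hg, eFun_of_notMem (by simpa using hg), map_zero]

end ChOn

end Index

section Kernel

variable {L : Type*} [Field L] [NumberField L] {W : Level L} {v : HeightOneSpectrum (𝓞 L)}

/-- A function invariant on both sides with support in finitely many cosets. -/
structure BiInv (W : Level L) (v : HeightOneSpectrum (𝓞 L)) (F : G2 L → ℂ) : Prop where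
  left : ∀ u ∈ W.loc v, ∀ g, F (u * g) = F g
  right : ∀ u ∈ W.loc v, ∀ g, F (g * u) = F g
  fin : ∀ a : G2 L, {d : G2 L ⧸ W.loc v | ∃ b, QuotientGroup.mk b = d ∧ F (b⁻¹ * a) ≠ 0}.Finite

/-- The values of the kernel of a function. -/
def BiInv.fn {F : G2 L → ℂ} (hF : BiInv W v F) (c d : G2 L ⧸ W.loc v) : ℂ :=
  Quotient.liftOn₂' c d (fun a b => F (b⁻¹ * a)) fun a b a' b' ha hb => by
    rw [QuotientGroup.leftRel_apply] at ha hb
    obtain ⟨u, hu, rfl⟩ : ∃ u ∈ W.loc v, a' = a * u := ⟨_, ha, (mul_inv_cancel_left a a').symm⟩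
    obtain ⟨u', hu', rfl⟩ : ∃ u ∈ W.loc v, b' = b * u := ⟨_, hb, (mul_inv_cancel_left b b').symm⟩
    rw [show (b * u')⁻¹ * (a * u) = u'⁻¹ * (b⁻¹ * a) * u by group, hF.right u hu,
      hF.left _ (inv_mem hu')]

/-- The kernel of a function. -/
def BiInv.ker {F : G2 L → ℂ} (hF : BiInv W v F) : LocKer W v where
  k := hF.fn
  inv g c d := by
    induction c using QuotientGroup.induction_on with | H a =>
    induction d using QuotientGroup.induction_on with | H b =>
    show F ((g * b)⁻¹ * (g * a)) = F (b⁻¹ * a)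
    group
  row c := by
    induction c using QuotientGroup.induction_on with | H a =>
    refine (hF.fin a).subset fun d hd => ?_
    induction d using QuotientGroup.induction_on with | H b =>
    exact ⟨b, rfl, hd⟩

@[simp] lemma BiInv.ker_mk {F : G2 L → ℂ} (hF : BiInv W v F) (a b : G2 L) :
    hF.ker.k (QuotientGroup.mk a) (QuotientGroup.mk b) = F (b⁻¹ * a) := rfl

variable {H : Subgroup (G2 L)} {χ : G2 L → ℂ}

lemma ChOn.biInv (hc : ChOn H (W.loc v) χ) : BiInv W v (eFun H (W.loc v) χ) where
  left u hu g := hc.eFun_left hu g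
  right u hu g := hc.eFun_right hu g
  fin a := (finite_cosets hc.le hc.fin a).subset fun d hd => by
    obtain ⟨b, rfl, hb⟩ := hd
    refine ⟨b, rfl, ?_⟩
    simpa using inv_mem (mem_of_eFun_ne hb)

/-- The kernel of a character. -/
def ChOn.ker (hc : ChOn H (W.loc v) χ) : LocKer W v := hc.biInv.ker

/-- The kernel of the idempotent. -/
lemma ChOn.ker_mk (hc : ChOn H (W.loc v) χ) (a b : G2 L) :
    hc.ker.k (QuotientGroup.mk a) (QuotientGroup.mk b) = eFun H (W.loc v) χ (b⁻¹ * a) := rfl

/-- The idempotent kernel is Hermitian. -/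
lemma ChOn.isHerm (hc : ChOn H (W.loc v) χ) : hc.ker.IsHerm := by
  intro c d
  induction c using QuotientGroup.induction_on with | H a =>
  induction d using QuotientGroup.induction_on with | H b =>
  rw [hc.ker_mk, hc.ker_mk, hc.conj_eFun]
  group

/-- The kernel of a character is idempotent. -/
theorem ChOn.idem (hc : ChOn H (W.loc v) χ) : hc.ker * hc.ker = hc.ker := by
  classical
  have : ((W.loc v).subgroupOf H).FiniteIndex := ⟨hc.fin⟩
  have := Fintype.ofFinite (H ⧸ (W.loc v).subgroupOf H)
  refine LocKer.ext (funext fun c => funext fun e => ?_)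
  induction c using QuotientGroup.induction_on with | H a =>
  induction e using QuotientGroup.induction_on with | H b =>
  rw [LocKer.mul_k, tsum_eq_sum (s := Finset.univ.image (fibMap hc.le a)) fun d hd => ?_,
    Finset.sum_image fun _ _ _ _ e => fibMap_injective hc.le a e]
  swap
  · induction d using QuotientGroup.induction_on with | H d =>
    rw [hc.ker_mk, mul_eq_zero]
    refine Or.inl (eFun_of_notMem fun hm => hd ?_)
    exact Finset.mem_image.mpr ⟨QuotientGroup.mk ⟨a⁻¹ * d, by simpa using inv_mem hm⟩,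
      Finset.mem_univ _, by rw [fibMap_mk]; simp⟩
  have hterm : ∀ k, hc.ker.k (QuotientGroup.mk a) (fibMap hc.le a k) *
      hc.ker.k (fibMap hc.le a k) (QuotientGroup.mk b) =
        ((W.loc v).relIndex H : ℂ)⁻¹ * eFun H (W.loc v) χ (b⁻¹ * a) := fun k => by
    induction k using QuotientGroup.induction_on with | H q =>
    rw [fibMap_mk, hc.ker_mk, hc.ker_mk, show (a * (q : G2 L))⁻¹ * a = (q : G2 L)⁻¹ by group,
      ← mul_assoc b⁻¹, hc.eFun_mul_right q.2, eFun_of_mem (inv_mem q.2), hc.map_inv q.2]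
    linear_combination ((W.loc v).relIndex H : ℂ)⁻¹ * eFun H (W.loc v) χ (b⁻¹ * a) * hc.norm _ q.2
  rw [Finset.sum_congr rfl fun k _ => hterm k, Finset.sum_const, Finset.card_univ, nsmul_eq_mul,
    show Fintype.card (H ⧸ (W.loc v).subgroupOf H) = (W.loc v).relIndex H by
      rw [Subgroup.relIndex, Subgroup.index, Nat.card_eq_fintype_card],
    mul_inv_cancel_left₀ (by exact_mod_cast hc.fin), hc.ker_mk]

end Kernel

end FermatAgent.LT2.Loc
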