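import Mathlib
import Fermat.Agent.LT2.Loc.Idem
import Fermat.Agent.LT2.Whit.Deep
import Fermat.Agent.LT.Whit.Local
import Fermat.Agent.LT.Whit.GalAct

/-!
# The character of a deep congruence subgroup

On the matrices congruent to one modulo the `m`-th power of the place the quotient of the upper
right entry by the lower right one is additive modulo the power `2 m`; a local additive character
makes it a character.
-/

set_option autoImplicit false

noncomputable section

open Matrix IsDedekindDomain NumberField WithZero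
open scoped MatrixGroups ComplexConjugate

namespace FermatAgent.LT2.Loc

open FermatAgent.LT (G2 g2Map sc locGL locK placeMap)
open FermatAgent.LT.Whit (psiV cnd)
open FermatAgent.LT2.Whit (locCN locKN)

variable {F : Type*} [Field F]

/-- The quotient of the upper entry by the lower diagonal one. -/
def rat (q : G2 F) : F :=
  (ProjGenLinGroup.mk_surjective q).choose.val 0 1 /
    (ProjGenLinGroup.mk_surjective q).choose.val 1 1

/-- The ratio of a matrix class. -/
lemma rat_mk (g : GL (Fin 2) F) : rat (ProjGenLinGroup.mk g) = g.val 0 1 / g.val 1 1 := by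
  have h := (ProjGenLinGroup.mk_surjective (ProjGenLinGroup.mk g)).choose_spec
  obtain ⟨u, hu⟩ := Matrix.ProjGenLinGroup.mk_eq_mk_iff.mp h.symm
  unfold rat
  have e := fun i j => congrArg (fun x : GL (Fin 2) F => x.val i j) hu
  simp only [Units.val_mul, LT.sc_val, mul_smul_comm, mul_one, Matrix.smul_apply, smul_eq_mul] at e
  rw [← e 0 1, ← e 1 1, mul_div_mul_left _ _ u.ne_zero]

lemma rat_map {E : Type*} [Field E] (φ : F →+* E) (q : G2 F) : rat (g2Map φ q) = φ (rat q) := by
  obtain ⟨g, rfl⟩ := ProjGenLinGroup.mk_surjective q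
  rw [ProjGenLinGroup.map_mk, rat_mk, rat_mk, map_div₀]
  rfl

variable [NumberField F] {v : HeightOneSpectrum (𝓞 F)} {n m : ℕ}

/-- The steps of the chart are inside the congruence subgroups. -/
lemma gam_le_locKN : gam v n ≤ locKN v (n + 1) := fun q hq => by
  obtain ⟨g, hg, rfl, hgv⟩ := exists_rep hq
  refine ⟨g, ⟨hg, fun i j => ?_⟩, rfl⟩
  rw [hgv, add_sub_cancel_left]
  exact (hq.2 i j).trans ((mul_le_of_le_one_left zero_le (val_two_le v)).trans_eq
    (by push_cast; rfl))

/-- The valuation of two. -/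
def d2 (v : HeightOneSpectrum (𝓞 F)) : ℕ := (-log (v.valuation F 2)).toNat

lemma val_two_eq (v : HeightOneSpectrum (𝓞 F)) : v.valuation F 2 = exp (-(d2 v : ℤ)) :=
  val_eq_exp_toNat v two_ne_zero (val_two_le v)

/-- The congruence subgroups are inside the steps of the chart. -/
lemma locKN_le_gam (h : n + 1 + 2 * d2 v ≤ m) : locKN v m ≤ gam v n := by
  rintro q ⟨g, ⟨hg, hg'⟩, rfl⟩
  have hlt : exp (-(m : ℤ)) < v.valuation F 2 := by
    rw [val_two_eq, exp_lt_exp]
    omega
  have e00 : (g.val - 1) 0 0 = g.val 0 0 - 1 := by simp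
  have e11 : (g.val - 1) 1 1 = g.val 1 1 - 1 := by simp
  have ht : v.valuation F g.val.trace = v.valuation F 2 := by
    rw [Matrix.trace_fin_two, show g.val 0 0 + g.val 1 1 =
      2 + ((g.val - 1) 0 0 + (g.val - 1) 1 1) by
      rw [e00, e11]; ring]
    exact Valuation.map_add_eq_of_lt_left _
      ((((v.valuation F).map_add _ _).trans (max_le (hg' 0 0) (hg' 1 1))).trans_lt hlt)
  have ht0 : g.val.trace ≠ 0 := fun e => val_two_ne v (by rw [← ht, e, map_zero])
  refine mem_gam.mpr ⟨by rw [chP_mk]; exact (trace_ch g).mpr ht0, fun i j => ?_⟩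
  rw [chP_mk, ch, show ((2 / g.val.trace) • g.val - 1) i j =
    (2 * (g.val - 1) i j - ((g.val - 1) 0 0 + (g.val - 1) 1 1) * (1 : M2 F) i j) / g.val.trace by
      rw [eq_div_iff ht0, Matrix.sub_apply, Matrix.smul_apply, smul_eq_mul, sub_mul,
        div_mul_eq_mul_div, div_mul_cancel₀ _ ht0]
      fin_cases i <;> fin_cases j <;> simp [Matrix.trace_fin_two] <;> ring]
  rw [map_div₀, ht, div_le_iff₀ (zero_lt_iff.mpr (val_two_ne v))]
  refine (le_trans ?_ (b := exp (-(m : ℤ))) ?_)
  · refine ((v.valuation F).map_sub _ _).trans (max_le ?_ ?_) <;> rw [map_mul]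
    · exact (mul_le_of_le_one_left zero_le (val_two_le v)).trans (hg' i j)
    · refine (mul_le_of_le_one_right zero_le ?_).trans
        (((v.valuation F).map_add _ _).trans (max_le (hg' 0 0) (hg' 1 1)))
      rw [Matrix.one_apply]; split_ifs <;> simp
  · rw [gr, val_two_eq, ← exp_add, ← exp_add, exp_le_exp]
    omega

/-- The character. -/
def chW (w : HeightOneSpectrum (𝓞 F)) (ξ : F) (q : G2 F) : ℂ := psiV w (ξ * rat q)

/-- The local additive character is unitary. -/
lemma norm_psiV (w : HeightOneSpectrum (𝓞 F)) (x : F) : conj (psiV w x) * psiV w x = 1 := by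
  rw [mul_comm, Complex.mul_conj, Complex.normSq_eq_norm_sq, psiV,
    LT.Theta.LocalChar.norm_ψloc]
  simp

/-- The diagonal of a matrix near one consists of units. -/
lemma val_diag_eq_one (hm : 0 < m) {g : GL (Fin 2) F}
    (hg : ∀ i j, v.valuation F ((g.val - 1) i j) ≤ exp (-(m : ℤ))) (i : Fin 2) :
    v.valuation F (g.val i i) = 1 := by
  rw [show g.val i i = 1 + (g.val - 1) i i by simp]
  exact Valuation.map_one_add_of_lt _ ((hg i i).trans_lt (by rw [← exp_zero, exp_lt_exp]; omega))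

/-- Diagonal entries near one are nonzero. -/
lemma diag_ne_zero (hm : 0 < m) {g : GL (Fin 2) F}
    (hg : ∀ i j, v.valuation F ((g.val - 1) i j) ≤ exp (-(m : ℤ))) (i : Fin 2) : g.val i i ≠ 0 :=
  (Valuation.ne_zero_iff _).1 (by rw [val_diag_eq_one hm hg]; exact one_ne_zero)

/-- The ratio is small on deep levels. -/
lemma val_rat_le (hm : 0 < m) {q : G2 F} (hq : q ∈ locKN v m) :
    v.valuation F (rat q) ≤ exp (-(m : ℤ)) := by
  obtain ⟨g, ⟨-, hg'⟩, rfl⟩ := hq
  have h11 := val_diag_eq_one hm hg' 1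
  rw [rat_mk, map_div₀, h11, div_one]
  simpa using hg' 0 1

/-- Additivity modulo the double power. -/
lemma val_rat_mul_sub (hm : 0 < m) {p q : G2 F} (hp : p ∈ locKN v m) (hq : q ∈ locKN v m) :
    v.valuation F (rat (p * q) - (rat p + rat q)) ≤ exp (-(2 * m : ℤ)) := by
  obtain ⟨g, ⟨-, hg⟩, rfl⟩ := hp
  obtain ⟨k, ⟨-, hk⟩, rfl⟩ := hq
  have hr : exp (-(m : ℤ)) < 1 := by rw [← exp_zero, exp_lt_exp]; omega
  have eg : ∀ i, g.val i i = 1 + (g.val - 1) i i := fun i => by simp
  have ek : ∀ i, k.val i i = 1 + (k.val - 1) i i := fun i => by simp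
  have hg11 := val_diag_eq_one hm hg 1
  have hk11 := val_diag_eq_one hm hk 1
  have g11 := diag_ne_zero hm hg 1
  have k11 := diag_ne_zero hm hk 1
  have hg01 : v.valuation F (g.val 0 1) ≤ exp (-(m : ℤ)) := by simpa using hg 0 1
  have hg10 : v.valuation F (g.val 1 0) ≤ exp (-(m : ℤ)) := by simpa using hg 1 0
  have hk01 : v.valuation F (k.val 0 1) ≤ exp (-(m : ℤ)) := by simpa using hk 0 1
  set D := g.val 1 0 * k.val 0 1 + g.val 1 1 * k.val 1 1 with hDdef
  have hD : v.valuation F D = 1 := by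
    rw [hDdef, Valuation.map_add_eq_of_lt_right _ ?_, map_mul, hg11, hk11, one_mul]
    rw [map_mul, map_mul, hg11, hk11, one_mul]
    exact mul_lt_one_of_lt_of_le (hg10.trans_lt hr) ((hk01.trans hr.le))
  have hD0 : D ≠ 0 := fun e => by rw [e, map_zero] at hD; exact zero_ne_one hD
  rw [← map_mul, rat_mk, rat_mk, rat_mk,
    show (g * k).val 0 1 = g.val 0 0 * k.val 0 1 + g.val 0 1 * k.val 1 1 by
      simp [Matrix.mul_apply, Fin.sum_univ_two],
    show (g * k).val 1 1 = D by simp [D, Matrix.mul_apply, Fin.sum_univ_two],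
    show (g.val 0 0 * k.val 0 1 + g.val 0 1 * k.val 1 1) / D -
      (g.val 0 1 / g.val 1 1 + k.val 0 1 / k.val 1 1) =
        ((g.val 1 1 * k.val 1 1) * ((g.val 0 0 - g.val 1 1) * k.val 0 1) -
          g.val 1 0 * k.val 0 1 * (g.val 0 1 * k.val 1 1 + k.val 0 1 * g.val 1 1)) /
          (D * (g.val 1 1 * k.val 1 1)) by field_simp; simp only [D]; ring,
    map_div₀, map_mul (v.valuation F) D, hD, map_mul (v.valuation F) (g.val 1 1), hg11, hk11]
  simp only [one_mul, div_one]
  have hdd : exp (-(m : ℤ)) * exp (-(m : ℤ)) = exp (-(2 * m : ℤ)) := by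
    rw [← exp_add]; congr 1; ring
  rw [← hdd]
  refine ((v.valuation F).map_sub _ _).trans (max_le ?_ ?_)
  · rw [map_mul, map_mul, hg11, hk11, one_mul, one_mul, map_mul]
    refine mul_le_mul' ?_ hk01
    rw [eg 0, eg 1, add_sub_add_left_eq_sub]
    exact ((v.valuation F).map_sub _ _).trans (max_le (hg 0 0) (hg 1 1))
  · rw [map_mul, map_mul]
    refine (mul_le_of_le_one_right zero_le ?_).trans (mul_le_mul' hg10 hk01)
    refine (((v.valuation F).map_add _ _).trans (max_le ?_ ?_)) <;> rw [map_mul]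
    · rw [hk11, mul_one]; exact hg01.trans hr.le
    · rw [hg11, mul_one]; exact hk01.trans hr.le

/-- The character on the congruence subgroup. -/
theorem chOn_chW {ξ : F} (hm : 0 < m)
    (hξ : v.valuation F ξ ≤ exp (cnd v + 2 * m)) {N : ℕ} (hN : 2 * m ≤ N)
    (hfin : (gam v N).relIndex (locKN v m) ≠ 0) : ChOn (locKN v m) (gam v N) (chW v ξ) where
  le := gam_le_locKN.trans (LT2.Whit.locKN_anti v (by omega))
  fin := hfin
  map_mul p hp q hq := by
    rw [chW, chW, chW, ← LT.Whit.psiV_add, ← mul_add]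
    refine LT.Whit.psiV_sub_eq (LT.Whit.psiV_eq_one ?_)
    rw [← mul_sub, map_mul]
    refine (mul_le_mul' hξ (val_rat_mul_sub hm hp hq)).trans ?_
    rw [← exp_add, exp_le_exp]
    omega
  map_one' u hu := by
    refine LT.Whit.psiV_eq_one ?_
    rw [map_mul]
    refine (mul_le_mul' hξ (val_rat_le (Nat.succ_pos N) (gam_le_locKN hu))).trans ?_
    rw [← exp_add, exp_le_exp]
    push_cast
    omega
  norm g _ := norm_psiV v _

section Map

variable {E : Type*} [Field E] [NumberField E] {u : HeightOneSpectrum (𝓞 E)} {f : F →+* E}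
  (hf : ∀ x, u.valuation E (f x) = v.valuation F x)

include hf

lemma map_mem_locKN {q : G2 F} (hq : q ∈ locKN v m) : g2Map f q ∈ locKN u m := by
  obtain ⟨g, ⟨hg, hg'⟩, rfl⟩ := hq
  refine ⟨GeneralLinearGroup.map f g, ⟨⟨fun i j => ?_, ?_⟩, fun i j => ?_⟩, by
    rw [ProjGenLinGroup.map_mk]⟩
  · rw [GeneralLinearGroup.map_apply, hf]
    exact hg.1 i j
  · rw [LT.det_map, hf]
    exact hg.2
  · rw [show ((GeneralLinearGroup.map f g).val - 1) i j = f ((g.val - 1) i j) by
      fin_cases i <;> fin_cases j <;> simp, hf]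
    exact hg' i j

end Map

lemma val_symm (τ : F ≃+* F) (w : HeightOneSpectrum (𝓞 F)) (x : F) :
    w.valuation F (τ.symm x) = (placeMap τ w).valuation F x := by
  rw [← LT.valuation_placeMap τ, RingEquiv.apply_symm_apply]

/-- The generator transports congruence levels. -/
lemma gmap_mem_locKN_iff (τ : F ≃+* F) (w : HeightOneSpectrum (𝓞 F)) {q : G2 F} :
    g2Map (τ : F →+* F) q ∈ locKN (placeMap τ w) m ↔ q ∈ locKN w m := by
  refine ⟨fun h => ?_, map_mem_locKN (LT.valuation_placeMap τ w)⟩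
  have h' := map_mem_locKN (u := w) (f := (τ.symm : F →+* F)) (val_symm τ w) h
  obtain ⟨g, rfl⟩ := ProjGenLinGroup.mk_surjective q
  rw [ProjGenLinGroup.map_mk, ProjGenLinGroup.map_mk] at h'
  convert h' using 2
  ext i j
  simp

/-- The local additive characters commute with automorphisms. -/
lemma psiV_gmap (τ : F ≃+* F) (w : HeightOneSpectrum (𝓞 F)) (x : F) :
    psiV (placeMap τ w) (τ x) = psiV w x := by
  obtain ⟨b, hb⟩ := LT.Theta.LocalChar.exists_part w (-x)
  rw [psiV, psiV, ← map_neg, LT.Theta.LocalChar.ψloc_eq hb,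
    LT.Theta.LocalChar.ψloc_eq (b := τ b) ⟨?_, fun u hu => ?_⟩,
    show τ b = AlgEquiv.ofRingEquiv (R := ℚ) (f := τ) (fun q => by simp) b from rfl,
    Algebra.trace_eq_of_algEquiv]
  · rw [← map_sub, LT.valuation_placeMap]; exact hb.1
  · obtain ⟨u, rfl⟩ := (placeMap τ).surjective u
    rw [LT.valuation_placeMap]
    exact hb.2 u fun e => hu (e ▸ rfl)

/-- The generator transports the characters. -/
lemma chW_gmap (τ : F ≃+* F) (w : HeightOneSpectrum (𝓞 F)) (ξ : F) (q : G2 F) :
    chW (placeMap τ w) (τ ξ) (g2Map (τ : F →+* F) q) = chW w ξ q := by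
  rw [chW, chW, rat_map, RingHom.coe_coe, ← map_mul, psiV_gmap]

namespace OneAbove

variable {K L : Type*} [Field K] [NumberField K] [Field L] [NumberField L] [Algebra K L]
  {τ : L ≃+* L} {v : HeightOneSpectrum (𝓞 K)} {w : HeightOneSpectrum (𝓞 L)}

/-- The ramification divides three. -/
lemma exists_exp (h : OneAbove τ v w) :
    ∃ e : ℕ, e ∣ 3 ∧ ∀ x, w.valuation L (algebraMap K L x) = v.valuation K x ^ e := by
  obtain ⟨e, he, hx⟩ := h.pair
  obtain ⟨π, hπ⟩ := w.valuation_exists_uniformizer L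
  obtain ⟨k, hk⟩ := h.twist.surj (π * τ π * τ (τ π)) (by
    simp only [map_mul, h.twist.cube]; ring)
  refine ⟨e, ?_, hx⟩
  have h1 : v.valuation K k ^ e = exp (-3 : ℤ) := by
    rw [← hx, hk, map_mul, map_mul, h.val_tau, h.val_tau, h.val_tau, hπ, ← exp_add, ← exp_add]
    norm_num
  have hk0 : v.valuation K k ≠ 0 := fun e' => by
    rw [e', zero_pow he] at h1
    exact exp_ne_zero h1.symm
  rw [← exp_log hk0, ← WithZero.exp_nsmul, exp_inj, nsmul_eq_mul] at h1
  exact Int.natCast_dvd_natCast.mp (show (e : ℤ) ∣ ((3 : ℕ) : ℤ) from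
    ⟨-log (v.valuation K k), by push_cast; linarith⟩)

end OneAbove

end FermatAgent.LT2.Loc
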