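import Mathlib
import Fermat.Agent.LT2.Loc.Match
import Fermat.Agent.LT.Descent.ClassesCentral
import Fermat.Agent.LT.Descent.Classes

/-!
# The local gluing at a place with one place above

A class of the base which is conjugate above to a deep one is conjugate below to one near one; the
translation of its representative follows, and with it the gluing of the orbital sums.
-/

set_option autoImplicit false

noncomputable section

open Matrix IsDedekindDomain NumberField WithZero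
open scoped MatrixGroups

namespace FermatAgent.LT2.Loc

open FermatAgent.LT (G2 g2Map sc locGL locK IsTwist PlacePair Cyc3 upGL nrmGL IsRep tnrm torus)

variable {K L : Type*} [Field K] [NumberField K] [Field L] [NumberField L] [Algebra K L]
  {τ : L ≃+* L} {v : HeightOneSpectrum (𝓞 K)} {w : HeightOneSpectrum (𝓞 L)}

/-- A trace zero matrix is similar to one with prescribed lower left entry. -/
lemma exists_antidiag {F : Type*} [Field F] [CharZero F] {X : M2 F} (hX : X.trace = 0) (h0 : X ≠ 0)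
    {p : F} (hp : p ≠ 0) :
    ∃ B : GL (Fin 2) F, B⁻¹.val * X * B.val = !![0, -X.det / p; p, 0] := by
  obtain ⟨P, hP⟩ := LT.Quad.exists_comp (not_isScal_of_trace_zero h0 hX)
  let D : GL (Fin 2) F := GeneralLinearGroup.mkOfDetNeZero !![1, 0; 0, p⁻¹]
    (by simp [Matrix.det_fin_two, hp])
  refine ⟨P * D, ?_⟩
  have e : LT.Quad.comp X.trace X.det * D.val = D.val * !![0, -X.det / p; p, 0] := by
    rw [hX]
    ext i j
    fin_cases i <;> fin_cases j <;>
      simp [D, GeneralLinearGroup.mkOfDetNeZero, LT.Quad.comp, Matrix.mul_apply,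
        Fin.sum_univ_two, hp]
    ring
  rw [_root_.mul_inv_rev, Units.val_mul, Units.val_mul, mul_assoc, ← mul_assoc X, hP,
    mul_assoc P.val, e, mul_assoc, Units.inv_mul_cancel_left, Units.inv_mul_cancel_left]

namespace OneAbove

variable (h : OneAbove τ v w)

include h

/-- Deep above up to conjugation is near one below up to conjugation. -/
theorem exists_conj (a' : ℕ) :
    ∃ n₀, ∀ (δ : GL (Fin 2) K) (y : G2 L),
      y⁻¹ * g2Map (algebraMap K L) (ProjGenLinGroup.mk δ) * y ∈ gam w n₀ →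
        ∃ B : GL (Fin 2) K, (ProjGenLinGroup.mk (B⁻¹ * δ * B) : G2 K) ∈ gam v a' := by
  obtain ⟨e, he, hx⟩ := h.pair
  obtain ⟨ϖ, hϖ⟩ := v.valuation_exists_uniformizer K
  obtain ⟨k, hk⟩ : ∃ k : ℕ, exp (-(k : ℤ)) ≤ gr v a' := by
    refine ⟨(-log (gr v a')).toNat, ?_⟩
    rw [← exp_log (gr_ne_zero v a'), exp_le_exp]
    simp only [log_exp]
    omega
  set p := ϖ ^ k
  have hp : v.valuation K p = exp (-(k : ℤ)) := by
    rw [map_pow, hϖ, ← WithZero.exp_nsmul]
    simp
  have hp0 : p ≠ 0 := fun e => by rw [e, map_zero] at hp; exact exp_ne_zero hp.symm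
  obtain ⟨n₀, hn₀⟩ := exists_gr_le w (r := (exp (-(k : ℤ)) * gr v a') ^ e)
    (pow_ne_zero _ (mul_ne_zero exp_ne_zero (gr_ne_zero v a')))
  refine ⟨n₀, fun δ y hy => ?_⟩
  obtain ⟨Y, rfl⟩ := ProjGenLinGroup.mk_surjective y
  obtain ⟨hy1, hy2⟩ := hy
  rw [chP_conj, chP_map, chP_mk] at hy1 hy2
  set X := ch δ
  set φ := algebraMap K L
  rw [Matrix.trace_units_conj', Matrix.trace_fin_two, Matrix.map_apply, Matrix.map_apply, ← map_add,
    map_eq_zero, ← Matrix.trace_fin_two] at hy1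
  by_cases hX0 : X = 0
  · refine ⟨1, ?_⟩
    rw [inv_one, one_mul, mul_one, mem_gam, chP_mk, show ch δ = 0 from hX0]
    exact ⟨Matrix.trace_zero _ _, small_zero⟩
  obtain ⟨B, hB⟩ := exists_antidiag hy1 hX0 hp0
  refine ⟨B, ?_⟩
  have hd : v.valuation K X.det ≤ exp (-(k : ℤ)) * gr v a' := by
    refine (pow_le_pow_iff_left₀ zero_le zero_le he).mp ?_
    have hdet : (Y⁻¹.val * X.map φ * Y.val).det = φ X.det := by
      rw [Matrix.det_units_conj', ← RingHom.mapMatrix_apply, ← RingHom.map_det]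
    rw [← hx, ← hdet]
    exact hy2.det.trans ((mul_le_of_le_one_left zero_le (gr_lt_one w n₀).le).trans hn₀)
  rw [mem_gam, chP_mk, ch_conj, hB]
  refine ⟨by simp [Matrix.trace_fin_two], fun i j => ?_⟩
  have h01 : v.valuation K (-X.det / p) ≤ gr v a' := by
    rw [map_div₀, Valuation.map_neg, hp, div_le_iff₀ (zero_lt_iff.mpr exp_ne_zero), mul_comm]
    exact hd
  fin_cases i <;> fin_cases j <;> simp only [Fin.zero_eta, Fin.mk_one, Matrix.of_apply,
    Matrix.cons_val', Matrix.cons_val_zero, Matrix.cons_val_one, Matrix.cons_val_fin_one,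
    Matrix.empty_val', map_zero]
  · exact zero_le
  · exact h01
  · rw [hp]; exact hk
  · exact zero_le

/-- Conjugating a representative by the base. -/
lemma isRep_conj {δ : GL (Fin 2) K} {γ : GL (Fin 2) L} (hγ : IsRep τ δ γ) (B : GL (Fin 2) K) :
    IsRep τ (B⁻¹ * δ * B) ((upGL B)⁻¹ * γ * upGL B) := by
  have hB : Cyc3.gmap τ (upGL (L := L) B) = upGL B := h.twist.gmap_up B
  refine ⟨?_, ?_⟩
  · simp only [map_mul, map_inv]
    have := hγ.comm.map (MulAut.conj (upGL (L := L) B)⁻¹)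
    simpa [mul_assoc] using this
  · obtain ⟨u, hu⟩ := hγ.nrm
    refine ⟨u, ?_⟩
    simp only [nrmGL, map_mul, map_inv, hB] at hu ⊢
    rw [show (upGL B)⁻¹ * γ * upGL B * ((upGL B)⁻¹ * Cyc3.gmap τ γ * upGL B) *
      ((upGL B)⁻¹ * Cyc3.gmap τ (Cyc3.gmap τ γ) * upGL B) =
        (upGL B)⁻¹ * (γ * Cyc3.gmap τ γ * Cyc3.gmap τ (Cyc3.gmap τ γ)) *
          upGL (L := L) B by group, hu]
    simp only [mul_assoc]
    rw [LT.sc_comm]

end OneAbove

namespace Descent

variable (D : Descent τ v w) [Fintype (gam w D.c ⧸ D.UL.subgroupOf (gam w D.c))]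

/-- A gluing of the orbital sums at the place. -/
structure Glued (γ : G2 L) (δ : G2 K) (H : Subgroup (G2 K))
    (A : G2 L ⧸ D.UL → G2 K ⧸ D.UK → ℝ) : Prop where
  nonneg : ∀ x z, 0 ≤ A x z
  finite_x : ∀ z, {x | upVal D γ x * (A x z : ℂ) ≠ 0}.Finite
  sum_x : ∀ z, ∑' x, upVal D γ x * (A x z : ℂ) = downVal D δ z
  sum_z : ∀ x, upVal D γ x ≠ 0 → HasSum (A x) 1
  finite_z : ∀ x, {z | A x z ≠ 0}.Finite
  equiv : ∀ g ∈ H, ∀ x z, A (g2Map (algebraMap K L) g • x) (g • z) = A x z

/-- The weights sit on boundedly many translates by an element commuting with the matrix. -/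
def Explicit (δ : GL (Fin 2) K) (A : G2 L ⧸ D.UL → G2 K ⧸ D.UK → ℝ) : Prop :=
  ∃ (t : GL (Fin 2) L) (Q : Finset (G2 L)), Commute t (upGL δ) ∧
    ∀ x z, A x z ≠ 0 → ∀ g : G2 K, QuotientGroup.mk g = z →
      ∃ q ∈ Q, x = QuotientGroup.mk (ProjGenLinGroup.mk t * g2Map (algebraMap K L) g * q)

variable {D}

lemma glued_of_transl {γ t : G2 L} {δ : G2 K} {H : Subgroup (G2 K)} (ht : D.Transl γ δ t)
    (hH : ∀ g ∈ H, Commute (g2Map (algebraMap K L) g) t) : D.Glued γ δ H (A D t) :=
  ⟨A_nonneg t, finite_x t γ, sum_x ht, sum_z ht, finite_z t, fun g hg x z => equiv (hH g hg) x z⟩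

omit [Fintype ((gam w D.c) ⧸ D.UL.subgroupOf (gam w D.c))] in
lemma transl_one : D.Transl 1 1 1 where
  nrm := by rw [LT.tnrm_one, map_one]
  comm := Commute.one_left _
  near y _ := by
    simp only [map_one, inv_one, mul_one, inv_mul_cancel, root_one]
    exact one_mem _

/-- The gluing at one. -/
theorem exists_glued_one : ∃ A, D.Glued 1 1 ⊤ A :=
  ⟨_, glued_of_transl transl_one fun _ _ => Commute.one_right _⟩

omit [Fintype ((gam w D.c) ⧸ D.UL.subgroupOf (gam w D.c))] in
/-- A twisted norm near one has a value near one above. -/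
lemma exists_near_of_upVal_ne {γ : G2 L} {δ : G2 K}
    (hn : tnrm τ γ = g2Map (algebraMap K L) δ) {x : G2 L ⧸ D.UL} (hx : upVal D γ x ≠ 0) :
    ∃ y : G2 L, y⁻¹ * g2Map (algebraMap K L) δ * y ∈ gam w D.a₀ := by
  induction x using QuotientGroup.induction_on with | H a =>
  have hg := D.F_supp _ hx
  refine ⟨a, ?_⟩
  rw [← hn]
  have := mul_mem (mul_mem hg (D.place.gmap_mem_gam hg))
    (D.place.gmap_mem_gam (D.place.gmap_mem_gam hg))
  convert this using 1
  simp only [tnrm, map_mul, map_inv, D.place.twist.g2Map_cube a]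
  group

/-- The gluing when nothing is near. -/
lemma glued_zero {γ : G2 L} {δ : G2 K} {H : Subgroup (G2 K)}
    (hn : tnrm τ γ = g2Map (algebraMap K L) δ)
    (hfar : ∀ y : G2 L, y⁻¹ * g2Map (algebraMap K L) δ * y ∉ gam w D.a₀) :
    D.Glued γ δ H (fun _ _ => 0) := by
  have h0 : ∀ x, upVal D γ x = 0 := fun x => by
    by_contra hne
    obtain ⟨y, hy⟩ := exists_near_of_upVal_ne hn hne
    exact hfar y hy
  refine ⟨fun _ _ => le_rfl, fun z => ?_, fun z => ?_, fun x hx => absurd (h0 x) hx, fun x => ?_,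
    fun _ _ _ _ => rfl⟩
  · simp
  · simp only [Complex.ofReal_zero, mul_zero, tsum_zero]
    induction z using QuotientGroup.induction_on with | H b =>
    rw [downVal_mk, fv_eq_zero]
    have := hfar (g2Map (algebraMap K L) b)
    rwa [← map_inv, ← map_mul, ← map_mul] at this
  · simp

/-- A nonzero value below is near one up to nine. -/
lemma near_of_downVal_ne {δ : G2 K} {z : G2 K ⧸ D.UK} (hz : downVal D δ z ≠ 0) :
    ∃ b : G2 K, b⁻¹ * δ * b ∈ gam v (2 * d3 v) := by
  induction z using QuotientGroup.induction_on with | H b =>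
  rw [downVal_mk] at hz
  exact ⟨b, D.supp_v _ (of_not_not fun hg => hz (fv_eq_zero hg))⟩

end Descent

namespace OneAbove

variable (h : OneAbove τ v w)

include h

/-- **Gluing.** For a deep support every class of the base glues. -/
theorem exists_depth :
    ∃ n₀, ∀ (D : Descent τ v w) [Fintype (gam w D.c ⧸ D.UL.subgroupOf (gam w D.c))], n₀ ≤ D.a₀ →
      ∀ (δ : GL (Fin 2) K) (γ : GL (Fin 2) L), (ProjGenLinGroup.mk δ : G2 K) ≠ 1 → IsRep τ δ γ →
        ∃ A, D.Glued (ProjGenLinGroup.mk γ) (ProjGenLinGroup.mk δ) (torus δ) A ∧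
          D.Explicit δ A := by
  obtain ⟨n₁, hn₁⟩ := h.exists_conj (d3 v + d3 v)
  refine ⟨max n₁ (d3 w + d3 w), fun D _ hD δ γ hδ hγ => ?_⟩
  set φ := algebraMap K L
  by_cases hnear : ∃ y : G2 L, y⁻¹ * g2Map φ (ProjGenLinGroup.mk δ) * y ∈ gam w D.a₀
  swap
  · exact ⟨_, Descent.glued_zero hγ.tnrm_eq fun y hy => hnear ⟨y, hy⟩, 1, ∅, Commute.one_left _,
      fun _ _ h => absurd rfl h⟩
  obtain ⟨y₀, hy₀⟩ := hnear
  obtain ⟨B, hB⟩ := hn₁ δ y₀ (gam_anti (le_trans (le_max_left _ _) hD) hy₀)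
  have hδ₀ : (ProjGenLinGroup.mk (B⁻¹ * δ * B) : G2 K) ≠ 1 := fun e => hδ (by
    simp only [map_mul, map_inv] at e
    rwa [mul_assoc, inv_mul_eq_one, eq_comm, mul_eq_right] at e)
  obtain ⟨t₀, hc, hn⟩ := h.exists_translate_near (deep_of_le v le_rfl) (deep_of_le w le_rfl) hδ₀
    (h.isRep_conj hγ B) hB D.N
  set uB := upGL (L := L) B
  set t := uB * t₀ * uB⁻¹ with htdef
  have hct : Commute t (upGL δ) := by
    have := hc.map (MulAut.conj uB)
    simpa [t, uB, mul_assoc] using this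
  obtain ⟨Q, hQ⟩ := Descent.exists_finset D
  refine ⟨_, Descent.glued_of_transl (t := ProjGenLinGroup.mk t)
    ⟨hγ.tnrm_eq, ?_, fun y hy => ?_⟩ fun g hg => ?_, t, Q, hct, hQ _⟩
  · rw [ProjGenLinGroup.map_mk]
    exact hct.map ProjGenLinGroup.mk
  · set y' := (ProjGenLinGroup.mk uB)⁻¹ * y
    have hu : g2Map φ (ProjGenLinGroup.mk B) = ProjGenLinGroup.mk uB := ProjGenLinGroup.map_mk _ _
    have hτu : g2Map (τ : L →+* L) (ProjGenLinGroup.mk uB) = ProjGenLinGroup.mk uB := by
      rw [ProjGenLinGroup.map_mk]; exact congrArg _ (h.twist.gmap_up B)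
    have ez : y'⁻¹ * g2Map φ (ProjGenLinGroup.mk (B⁻¹ * δ * B)) * y' =
        y⁻¹ * g2Map φ (ProjGenLinGroup.mk δ) * y := by
      simp only [y', map_mul, map_inv, hu]; group
    have h1 := hn y' (by rw [ez]; exact gam_anti (le_trans (le_max_right _ _) hD) hy)
    rw [ez] at h1
    convert h1 using 2
    simp only [y', t, map_mul, map_inv, hτu]
    group
  · obtain ⟨G, hG, rfl⟩ := hg
    rw [ProjGenLinGroup.map_mk]
    refine Commute.map ?_ ProjGenLinGroup.mk
    exact LT.commute_of_commute_up hδ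
      ((show Commute G δ from Subgroup.mem_centralizer_singleton_iff.mp hG).map
        (GeneralLinearGroup.map φ))
      hct

end OneAbove

end FermatAgent.LT2.Loc
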